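import Fermat.Agent.TwoCardinal.Minimal
import Fermat.Agent.Morley.Stretching

/-!
# The theorem of Baldwin and Lachlan

Uncountable categoricity is omega-stability together with the absence of Vaughtian pairs.
-/

set_option autoImplicit false

universe u v w

namespace FA.TwoCardinal

open FirstOrder Language Cardinal Set FA.Morley FA.StronglyMinimal

variable {L : Language.{u, v}} {T : L.Theory}

/-- **Categoricity excludes Vaughtian pairs.** -/
theorem not_hasVaughtianPair_of_categorical [Countable L.Symbols] (hT : T.IsComplete)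
    {κ : Cardinal.{max u v}} (hκ : ℵ₀ < κ) (h : κ.Categorical T) : ¬HasVaughtianPair T := by
  classical
  rintro ⟨N, S, ⟨k, ψ, a⟩, ha, hsub, hinf, hne⟩
  obtain ⟨M, b, hM, hsol⟩ := exists_aleph_one_model N S hne ψ (fun _ => a) (fun _ => ha)
    (fun _ => hsub) fun n => by rw [hinf.encard_eq]; exact le_top
  let φ : PFormula L M := ⟨k, ψ, b⟩
  have hsat := isSaturated_of_categorical_of_isComplete hT hκ h M
    (by rw [hM]; exact (aleph_one_le_iff.1 le_rfl))
  let B : Set M := solutions id φ ∪ range b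
  have hB : #B < #M := by
    rw [hM]
    refine lt_of_le_of_lt (le_aleph0_iff_set_countable.2 ?_) (aleph_one_le_iff.1 le_rfl)
    exact (le_aleph0_iff_set_countable.1 hsol.le).union (countable_range b)
  have hφinf : (solutions id φ).Infinite := Set.infinite_coe_iff.1 (infinite_iff.2 hsol.ge)
  let φB : PFormula L B := ⟨k, ψ, fun j => ⟨b j, .inr ⟨j, rfl⟩⟩⟩
  let ne : B → PFormula L B := fun c =>
    ⟨1, (Term.equal (.var (1 : Fin 2)) (.var 0)).not, fun _ => c⟩
  have hne' : ∀ c x, Holds (Subtype.val : B → M) (ne c) x ↔ x ≠ c := fun c x => by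
    simp [Holds, ne, Formula.realize_not, Formula.realize_equal, Fin.snoc]
  have : Nonempty M := hφinf.nonempty.to_subtype.map Subtype.val
  obtain ⟨p, hp, hSp⟩ := exists_type_superset (Subtype.val : B → M) (insert φB (range ne))
    fun s hs => by
      let F : Set M := ⋃ e ∈ (s : Set (PFormula L B)), range fun j => ((e.2.2 j : B) : M)
      have hF : F.Finite := s.finite_toSet.biUnion fun e _ => finite_range _
      obtain ⟨x, hx, hxF⟩ := hφinf.exists_notMem_finite hF
      refine ⟨x, fun e he => ?_⟩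
      rcases hs he with rfl | ⟨c, rfl⟩
      · exact hx
      · exact (hne' c x).2 fun hxc => hxF (mem_iUnion₂.2 ⟨ne c, he, (0 : Fin 1), hxc.symm⟩)
  obtain ⟨x, hx⟩ := hsat B hB p hp
  have hxφ : x ∈ solutions id φ := (hx φB).1 (hSp (mem_insert _ _))
  exact (hne' ⟨x, .inl hxφ⟩ x).1 ((hx _).1 (hSp (mem_insert_of_mem _ ⟨_, rfl⟩))) rfl

/-- The algebraic points over a set are no more than the set and the language. -/
theorem mk_acl_le {M : Type (max u v)} [L.Structure M] (B : Set M) :
    #(acl L B) ≤ max ℵ₀ (#B + L.card) := by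
  let F : L.Formula (B ⊕ Fin 1) → Set M := fun ψ =>
    {a | a ∈ solSet ψ (Subtype.val : B → M) ∧ (solSet ψ (Subtype.val : B → M)).Finite}
  have hF : ∀ ψ, #(F ψ) ≤ ℵ₀ := fun ψ => by
    by_cases h : (solSet ψ (Subtype.val : B → M)).Finite
    · exact (h.subset fun a ha => ha.1).countable.le_aleph0
    · rw [show F ψ = ∅ from eq_empty_of_forall_notMem fun a ha => h ha.2]
      simp
  have hu : acl L B ⊆ ⋃ ψ, F ψ := fun a ⟨ψ, hψ⟩ => mem_iUnion.2 ⟨ψ, hψ⟩
  have hcard : #(L.Formula (B ⊕ Fin 1)) ≤ max ℵ₀ (#B + L.card) := by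
    refine (mk_le_of_injective (sigma_mk_injective (i := 0))).trans
      ((BoundedFormula.card_le (L := L) (α := B ⊕ Fin 1)).trans (max_le (le_max_left _ _) ?_))
    simp only [Cardinal.lift_id, mk_sum, mk_fintype, Fintype.card_fin, Nat.cast_one,
      lift_one, lift_id']
    rcases lt_or_ge (#B + L.card) ℵ₀ with h | h
    · refine le_trans ?_ (le_max_left _ _)
      rw [add_lt_aleph0_iff] at h
      exact (add_lt_aleph0 (add_lt_aleph0 h.1 one_lt_aleph0) h.2).le
    · refine le_trans ?_ (le_max_right _ _)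
      rw [add_right_comm, add_one_eq h]
  calc #(acl L B) ≤ #(⋃ ψ, F ψ) := mk_le_mk_of_subset hu
    _ ≤ Cardinal.sum fun ψ => #(F ψ) := mk_iUnion_le_sum_mk
    _ ≤ Cardinal.sum fun _ : L.Formula (B ⊕ Fin 1) => ℵ₀ := sum_le_sum _ _ hF
    _ = #(L.Formula (B ⊕ Fin 1)) * ℵ₀ := by simp [sum_const]
    _ ≤ max ℵ₀ (#B + L.card) * ℵ₀ := by gcongr
    _ = max ℵ₀ (#B + L.card) := mul_aleph0_eq (le_max_left _ _)

/-- The pairs of parameters. -/
def paramPairs {k : ℕ} {M N : Type w} (b : Fin k → M) (b' : Fin k → N) : Set (M × N) :=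
  range fun j => (b j, b' j)

/-- **Generic points of a minimal set** have one type. -/
theorem insert_generic_minimal {M N : Type w} [L.Structure M] [L.Structure N] {k : ℕ}
    {θ : L.Formula (Fin k ⊕ Fin 1)} {b : Fin k → M} {b' : Fin k → N}
    (hD : IsMinimalSet L (solSet θ b)) {R : Set (M × N)} (hR : IsPartialElementary L R)
    (hpar : paramPairs b b' ⊆ R) {a : M} {y : N} (ha : a ∈ solSet θ b)
    (hna : a ∉ acl L (Prod.fst '' R)) (hy : y ∈ solSet θ b')
    (hny : y ∉ acl L (Prod.snd '' R)) : IsPartialElementary L (insert (a, y) R) := by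
  let r : Fin k → R := fun j => ⟨(b j, b' j), hpar ⟨j, rfl⟩⟩
  let θR : L.Formula (R ⊕ Fin 1) := θ.relabel (Sum.map r id)
  have hθ₁ : solSet θR (fun p : R => p.1.1) = solSet θ b := solSet_relabel r θ _
  have hθ₂ : solSet θR (fun p : R => p.1.2) = solSet θ b' := solSet_relabel r θ _
  refine IsPartialElementary.insert_pair fun ψ => ?_
  have hno : ∀ χ : L.Formula (R ⊕ Fin 1), (solSet (θR ⊓ χ) fun p : R => p.1.1).Finite →
      a ∉ solSet χ (fun p : R => p.1.1) ∧ y ∉ solSet χ (fun p : R => p.1.2) := fun χ hf =>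
    ⟨fun h => hna (mem_acl_fst_iff.1 ⟨θR ⊓ χ, by rw [solSet_inf, hθ₁]; exact ⟨ha, h⟩, hf⟩),
      fun h => hny (mem_acl_snd_iff.1 ⟨θR ⊓ χ, by rw [solSet_inf, hθ₂]; exact ⟨hy, h⟩,
        (finite_solSet_congr hR _).1 hf⟩)⟩
  rcases hD.finite_or ψ fun p : R => p.1.1 with hf | hf
  · obtain ⟨h1, h2⟩ := hno ψ (by rw [solSet_inf, hθ₁]; exact hf)
    exact iff_of_false h1 h2
  · obtain ⟨h1, h2⟩ := hno ψ.not (by rw [solSet_inf, hθ₁, solSet_not]; exact hf)
    rw [solSet_not, mem_compl_iff, not_not] at h1 h2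
    exact iff_of_true h1 h2

/-- Parameters of one type give an elementary map. -/
theorem partialElementary_paramPairs {M N : Type w} [L.Structure M] [L.Structure N] {k : ℕ}
    {b : Fin k → M} {b' : Fin k → N} (h : ElemEquiv L b b') :
    IsPartialElementary L (paramPairs b b') := by
  choose sec hsec using fun p : paramPairs b b' => p.2
  have h' := h.comp sec
  rwa [show b ∘ sec = fun p => p.1.1 from funext fun p => congrArg Prod.fst (hsec p),
    show b' ∘ sec = fun p => p.1.2 from funext fun p => congrArg Prod.snd (hsec p)] at h'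

/-- **A map between minimal sets extends by one point** while it is small. -/
theorem exists_insert_minimal [Countable L.Symbols] {M N : Type (max u v)} [L.Structure M]
    [L.Structure N] {k : ℕ} {θ : L.Formula (Fin k ⊕ Fin 1)} {b : Fin k → M} {b' : Fin k → N}
    (hD : IsMinimalSet L (solSet θ b)) {μ : Cardinal.{max u v}} (hμ : ℵ₀ < μ)
    (hD' : #(solSet θ b') = μ) {R : Set (M × N)} (hR : IsPartialElementary L R)
    (hb : paramPairs b b' ⊆ R) (hRcard : #R < μ) {a : M} (ha : a ∈ solSet θ b) :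
    ∃ y ∈ solSet θ b', IsPartialElementary L (insert (a, y) R) := by
  classical
  let r : Fin k → R := fun j => ⟨(b j, b' j), hb ⟨j, rfl⟩⟩
  let θR : L.Formula (R ⊕ Fin 1) := θ.relabel (Sum.map r id)
  have hθ₁ : solSet θR (fun p : R => p.1.1) = solSet θ b := solSet_relabel r θ _
  have hθ₂ : solSet θR (fun p : R => p.1.2) = solSet θ b' := solSet_relabel r θ _
  by_cases halg : a ∈ acl L (Prod.fst '' R)
  · obtain ⟨y, hy⟩ := hR.exists_insert halg
    refine ⟨y, ?_, hy⟩
    let R' : Set (M × N) := insert (a, y) R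
    let r' : Fin k ⊕ Fin 1 → R' := Sum.elim (fun j => ⟨(r j).1, mem_insert_of_mem _ (r j).2⟩)
      fun _ => ⟨(a, y), mem_insert _ _⟩
    have h1 := elemEquiv_realize (hy.comp r') θ
    have e1 : ((fun p : R' => p.1.1) ∘ r') = Sum.elim b fun _ => a :=
      funext fun i => by rcases i with i | i <;> rfl
    have e2 : ((fun p : R' => p.1.2) ∘ r') = Sum.elim b' fun _ => y :=
      funext fun i => by rcases i with i | i <;> rfl
    rw [e1, e2] at h1
    exact h1.1 ha
  · have hsmall : #(acl L (Prod.snd '' R)) < μ := (mk_acl_le _).trans_lt (max_lt hμ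
      (add_lt_of_lt hμ.le (mk_image_le.trans_lt hRcard) (card_language_le.trans_lt hμ)))
    obtain ⟨y, hy, hyacl⟩ := not_subset.1 fun hsub : solSet θ b' ⊆ acl L (Prod.snd '' R) =>
      absurd ((mk_le_mk_of_subset hsub).trans_lt hsmall) (by rw [hD']; exact lt_irrefl μ)
    exact ⟨y, hy, insert_generic_minimal hD hR hb ha halg hy hyacl⟩

/-- **A bijection of minimal sets of one size is elementary.** -/
theorem exists_map_minimal [Countable L.Symbols] {M N : Type (max u v)} [L.Structure M]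
    [L.Structure N] {k : ℕ} {θ : L.Formula (Fin k ⊕ Fin 1)} {b : Fin k → M} {b' : Fin k → N}
    (hbb : ElemEquiv L b b') (hDM : IsMinimalSet L (solSet θ b))
    (hDN : IsMinimalSet L (solSet θ b')) {μ : Cardinal.{max u v}} (hμ : ℵ₀ < μ)
    (hM : #(solSet θ b) = μ) (hN : #(solSet θ b') = μ) :
    ∃ R : Set (M × N), paramPairs b b' ⊆ R ∧ IsPartialElementary L R ∧
      solSet θ b ⊆ Prod.fst '' R ∧ solSet θ b' ⊆ Prod.snd '' R := by
  classical
  have h₀ := partialElementary_paramPairs hbb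
  let ι := μ.ord.ToType
  obtain ⟨d⟩ : Nonempty (ι ≃ solSet θ b) := Cardinal.eq.1 (by rw [mk_ord_toType, hM])
  obtain ⟨d'⟩ : Nonempty (ι ≃ solSet θ b') := Cardinal.eq.1 (by rw [mk_ord_toType, hN])
  have hIio : ∀ i : ι, #(Iio i) < μ := fun i =>
    (mk_Iio_lt i (by rw [mk_ord_toType, Ordinal.type_toType])).trans_eq (mk_ord_toType _)
  let Good : ι → Set (M × N) → Prop := fun i R =>
    paramPairs b b' ⊆ R ∧ IsPartialElementary L R ∧ #R ≤ max ℵ₀ #(Iio i) ∧
      (d i).1 ∈ Prod.fst '' R ∧ (d' i).1 ∈ Prod.snd '' R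
  let pick : ι → Set (M × N) → Set (M × N) := fun i U =>
    if h : ∃ R, Good i R ∧ U ⊆ R then h.choose else ∅
  let G : ι → Set (M × N) := wellFounded_lt.fix fun i rec =>
    pick i (paramPairs b b' ∪ ⋃ (j) (h : j < i), rec j h)
  have hG : ∀ i, G i = pick i (paramPairs b b' ∪ ⋃ j ∈ Iio i, G j) := fun i => by
    simp only [G]
    rw [WellFounded.fix_eq]
    rfl
  have hgood : ∀ i, Good i (G i) ∧ ∀ j < i, G j ⊆ G i := fun i => by
    induction i using WellFoundedLT.induction with
    | ind i ih =>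
      let U := paramPairs b b' ∪ ⋃ j ∈ Iio i, G j
      have hUel : IsPartialElementary L U := by
        have hdir : DirectedOn (· ⊆ ·) (insert (paramPairs b b') (G '' Iio i)) := by
          rintro X (rfl | ⟨j, hj, rfl⟩) Y (rfl | ⟨l, hl, rfl⟩)
          · exact ⟨_, mem_insert _ _, subset_rfl, subset_rfl⟩
          · exact ⟨G l, mem_insert_of_mem _ ⟨l, hl, rfl⟩, (ih l hl).1.1, subset_rfl⟩
          · exact ⟨G j, mem_insert_of_mem _ ⟨j, hj, rfl⟩, subset_rfl, (ih j hj).1.1⟩
          · rcases lt_trichotomy j l with h | rfl | h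
            · exact ⟨G l, mem_insert_of_mem _ ⟨l, hl, rfl⟩, (ih l hl).2 j h, subset_rfl⟩
            · exact ⟨G j, mem_insert_of_mem _ ⟨j, hj, rfl⟩, subset_rfl, subset_rfl⟩
            · exact ⟨G j, mem_insert_of_mem _ ⟨j, hj, rfl⟩, subset_rfl, (ih j hj).2 l h⟩
        have h := partialElementary_sUnion hdir ⟨_, mem_insert _ _⟩ (by
          rintro X (rfl | ⟨j, hj, rfl⟩)
          exacts [h₀, (ih j hj).1.2.1])
        rwa [sUnion_insert, sUnion_image] at h
      have hle : ℵ₀ ≤ max ℵ₀ #(Iio i) := le_max_left _ _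
      have hUcard : #U ≤ max ℵ₀ #(Iio i) := by
        refine (mk_union_le _ _).trans (add_le_of_le hle
          (((finite_range _).countable.le_aleph0).trans hle) ?_)
        refine (mk_biUnion_le _ _).trans (mul_le_of_le hle (le_max_right _ _) (ciSup_le' fun j =>
            (ih j.1 j.2).1.2.2.1.trans (max_le_max le_rfl (mk_le_mk_of_subset ?_))))
        exact Iio_subset_Iio (mem_Iio.1 j.2).le
      have hUμ : #U < μ := hUcard.trans_lt (max_lt hμ (hIio i))
      obtain ⟨y, -, hy⟩ := exists_insert_minimal hDM hμ hN hUel subset_union_left hUμ (d i).2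
      have hswap : paramPairs b' b ⊆ Prod.swap '' insert ((d i).1, y) U := by
        rintro _ ⟨j, rfl⟩
        exact ⟨_, mem_insert_of_mem _ (.inl ⟨j, rfl⟩), rfl⟩
      have hsmall : #(Prod.swap '' insert ((d i).1, y) U : Set (N × M)) < μ :=
        mk_image_le.trans_lt ((mk_insert_le).trans_lt (add_lt_of_lt hμ.le hUμ
          (one_lt_aleph0.trans hμ)))
      obtain ⟨x, -, hx⟩ := exists_insert_minimal hDN hμ hM hy.swap hswap hsmall (d' i).2
      have hx' := hx.swap
      rw [image_insert_eq, image_image] at hx'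
      simp only [Prod.swap_swap, image_id', Prod.swap_prod_mk] at hx'
      have hex : ∃ R, Good i R ∧ U ⊆ R :=
        ⟨_, ⟨fun p hp => mem_insert_of_mem _ (mem_insert_of_mem _ (.inl hp)), hx',
          (mk_insert_le).trans (add_le_of_le hle
            ((mk_insert_le).trans (add_le_of_le hle hUcard (one_le_aleph0.trans hle)))
            (one_le_aleph0.trans hle)),
          ⟨_, mem_insert_of_mem _ (mem_insert _ _), rfl⟩, ⟨_, mem_insert _ _, rfl⟩⟩,
          fun p hp => mem_insert_of_mem _ (mem_insert_of_mem _ hp)⟩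
      have e : G i = hex.choose := by rw [hG i]; exact dif_pos hex
      rw [e]
      exact ⟨hex.choose_spec.1, fun j hj =>
        (subset_biUnion_of_mem (u := G) (show j ∈ Iio i from hj)).trans
          (subset_union_right.trans hex.choose_spec.2)⟩
  refine ⟨paramPairs b b' ∪ ⋃₀ range G, subset_union_left, ?_, fun x hx => ?_, fun y hy => ?_⟩
  · rw [← sUnion_insert]
    refine partialElementary_sUnion ?_ ⟨_, mem_insert _ _⟩ (by
      rintro X (rfl | ⟨j, rfl⟩)
      exacts [h₀, (hgood j).1.2.1])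
    rintro X (rfl | ⟨j, rfl⟩) Y (rfl | ⟨l, rfl⟩)
    · exact ⟨_, mem_insert _ _, subset_rfl, subset_rfl⟩
    · exact ⟨G l, mem_insert_of_mem _ ⟨l, rfl⟩, (hgood l).1.1, subset_rfl⟩
    · exact ⟨G j, mem_insert_of_mem _ ⟨j, rfl⟩, subset_rfl, (hgood j).1.1⟩
    · rcases lt_trichotomy j l with h | rfl | h
      · exact ⟨G l, mem_insert_of_mem _ ⟨l, rfl⟩, (hgood l).2 j h, subset_rfl⟩
      · exact ⟨G j, mem_insert_of_mem _ ⟨j, rfl⟩, subset_rfl, subset_rfl⟩
      · exact ⟨G j, mem_insert_of_mem _ ⟨j, rfl⟩, subset_rfl, (hgood j).2 l h⟩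
  · obtain ⟨p, hp, hp'⟩ := (hgood (d.symm ⟨x, hx⟩)).1.2.2.2.1
    exact ⟨p, .inr ⟨_, ⟨_, rfl⟩, hp⟩, by simpa using hp'⟩
  · obtain ⟨p, hp, hp'⟩ := (hgood (d'.symm ⟨y, hy⟩)).1.2.2.2.2
    exact ⟨p, .inr ⟨_, ⟨_, rfl⟩, hp⟩, by simpa using hp'⟩

/-- An elementary substructure around a minimal set and its parameters is everything. -/
theorem eq_univ_of_not_hasVaughtianPair (hVP : ¬HasVaughtianPair T)
    (M : Theory.ModelType.{u, v, max u v} T) (S : L.ElementarySubstructure M) {k : ℕ}
    {θ : L.Formula (Fin k ⊕ Fin 1)} {b : Fin k → M} (hinf : (solSet θ b).Infinite)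
    (hb : ∀ j, b j ∈ S) (hsub : solSet θ b ⊆ S) : (S : Set M) = Set.univ := by
  let φ : PFormula L M := ⟨k, θ.relabel (Sum.elim Fin.castSucc fun _ => Fin.last k), b⟩
  have hφ : solutions id φ = solSet θ b := by
    ext y
    show Holds id φ y ↔ _
    simp only [Holds, φ, Formula.realize_relabel, mem_solSet]
    exact iff_of_eq (congrArg _ (funext fun i => by rcases i with i | i <;> simp))
  exact by_contra fun h => hVP ⟨M, S, φ, hb, hφ ▸ hsub, hφ ▸ hinf, h⟩

/-- An elementary substructure is closed under algebraic points. -/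
theorem acl_subset_submodel {M : Type w} [L.Structure M] (S : L.ElementarySubstructure M)
    {A : Set M} (hA : A ⊆ S) : acl L A ⊆ S := by
  classical
  intro a ha
  obtain ⟨ψ, haψ, hfin⟩ := acl_mono hA ha
  have hf := hfin.subset (sep_subset _ fun x => x ∈ (S : Set M))
  let F := hf.toFinset
  let χ : L.Formula ((S : Set M) ⊕ Fin 1) := ψ ⊓ Formula.iInf fun x : F =>
    (Term.equal (.var (Sum.inr 0)) (.var (Sum.inl ⟨x.1, (hf.mem_toFinset.1 x.2).2⟩))).not
  let g : ↥(S : Set M) → M := Subtype.val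
  have hχ : ∀ y, Holds g (toPFormula χ) y ↔ y ∈ solSet ψ g ∧ ∀ x ∈ F, y ≠ x := fun y => by
    simp [g, holds_toPFormula, χ, mem_solSet, Formula.realize_inf, Formula.realize_iInf,
      Formula.realize_equal]
  by_contra hno
  obtain ⟨y, hyS, hy⟩ := exists_mem_holds S (toPFormula χ) (fun j => Subtype.property _)
    ⟨a, (hχ a).2 ⟨haψ, fun x hx h => hno (h ▸ (hf.mem_toFinset.1 hx).2)⟩⟩
  exact ((hχ y).1 hy).2 y (hf.mem_toFinset.2 ⟨((hχ y).1 hy).1, hyS⟩) rfl

/-- **A map over a minimal set extends to the whole model** without Vaughtian pairs, and it is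
onto when its range spans the minimal set. -/
theorem exists_embedding_of_acl (hst : IsOmegaStable T) (hVP : ¬HasVaughtianPair T)
    (M N : Theory.ModelType.{u, v, max u v} T) {k : ℕ} {θ : L.Formula (Fin k ⊕ Fin 1)}
    {b : Fin k → M} {b' : Fin k → N} (hD : (solSet θ b).Infinite)
    {R₀ : Set (M × N)} (hR₀ : IsPartialElementary L R₀) (hpar : paramPairs b b' ⊆ R₀)
    (hdom : solSet θ b ⊆ acl L (Prod.fst '' R₀)) :
    ∃ e : M ↪ₑ[L] N, (∀ p ∈ R₀, e p.1 = p.2) ∧
      ((solSet θ b').Infinite → solSet θ b' ⊆ acl L (Prod.snd '' R₀) → Function.Surjective e) := by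
  classical
  obtain ⟨R, hR₀R, hR⟩ := zorn_subset_nonempty {R : Set (M × N) | IsPartialElementary L R}
    (fun c hc hchain hne => ⟨⋃₀ c, partialElementary_sUnion hchain.directedOn hne fun X hX => hc hX,
      fun X hX => subset_sUnion_of_mem hX⟩) R₀ hR₀
  -- the domain is closed under witnesses
  have hclosed : ∀ φ : PFormula L R, (∃ a, Holds (fun p : R => p.1.1) φ a) →
      ∃ p : R, Holds (fun p : R => p.1.1) φ p.1.1 := by
    intro φ hφ
    obtain ⟨a, χ, haφ, haχ, hχ⟩ := exists_isolating hst M (fun p : R => p.1.1) φ hφ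
    obtain ⟨y, hy⟩ := (hR.prop.exists_holds χ).1 ⟨a, haχ⟩
    have key : ∀ ξ : PFormula L R, Holds (fun p : R => p.1.1) ξ a →
        Holds (fun p : R => p.1.2) ξ y := fun ξ hξ => by
      let bad : PFormula L R := negation (conj fun i : Bool => cond i χ (negation ξ))
      have hall : ∀ z, Holds (fun p : R => p.1.1) bad z := fun z => by
        rw [holds_negation, holds_conj]
        exact fun hz => (holds_negation _ ξ z).1 (hz false) ((hχ z (hz true) ξ).1 hξ)
      have := (hR.prop.forall_holds bad).1 hall y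
      rw [holds_negation, holds_conj] at this
      by_contra hn
      exact this (Bool.forall_bool.2 ⟨(holds_negation _ ξ y).2 hn, hy⟩)
    have hins : IsPartialElementary L (insert (a, y) R) :=
      IsPartialElementary.insert_pair fun ψ => by
        rw [← solSet_eq_solutions, ← solSet_eq_solutions]
        exact ⟨key _, fun h => by_contra fun hn => (holds_negation _ _ y).1
          (key _ ((holds_negation _ _ a).2 hn)) h⟩
    exact ⟨⟨(a, y), hR.le_of_ge hins (subset_insert _ _) (mem_insert _ _)⟩, haφ⟩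
  obtain ⟨S, hS⟩ := exists_elementary_range (fun p : R => p.1.1) hclosed
  have hmem : ∀ {p}, p ∈ R₀ → p.1 ∈ S := fun {p} hp => by
    rw [← SetLike.mem_coe, hS]
    exact ⟨⟨p, hR₀R hp⟩, rfl⟩
  have hSuniv : (S : Set M) = Set.univ :=
    eq_univ_of_not_hasVaughtianPair hVP M S hD (fun j => hmem (hpar ⟨j, rfl⟩))
      (hdom.trans (acl_subset_submodel S (image_subset_iff.2 fun p hp => hmem hp)))
  have htot : ∀ a, ∃ y, (a, y) ∈ R := fun a => by
    obtain ⟨⟨⟨a', y⟩, hp⟩, rfl⟩ : a ∈ range fun p : R => p.1.1 := by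
      rw [← hS, hSuniv]
      trivial
    exact ⟨y, hp⟩
  choose F hF using htot
  have heF : ∀ p ∈ R₀, F p.1 = p.2 := fun p hp =>
    (hR.prop.left_unique (hF p.1) (hR₀R hp)).1 rfl
  have hall : ElemEquiv L (id : M → M) F := hR.prop.comp fun a : M => (⟨(a, F a), hF a⟩ : R)
  let e : M ↪ₑ[L] N := ⟨F, fun n φ a => (hall n φ a).symm⟩
  refine ⟨e, heF, fun hD' himg => ?_⟩
  obtain ⟨S', hS'⟩ := exists_elementary_range (L := L) (F : M → N) fun φ hφ =>
    (hall.exists_holds φ).2 hφ |>.imp fun x hx => (hall.holds_iff φ id x).1 hx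
  have hmem' : ∀ {p}, p ∈ R₀ → p.2 ∈ S' := fun {p} hp => by
    rw [← SetLike.mem_coe, hS']
    exact ⟨p.1, heF p hp⟩
  exact range_eq_univ.1 (hS'.symm.trans (eq_univ_of_not_hasVaughtianPair hVP N S' hD'
    (fun j => hmem' (hpar ⟨j, rfl⟩))
    (himg.trans (acl_subset_submodel S' (image_subset_iff.2 fun p hp => hmem' hp)))))

/-- **Baldwin and Lachlan: the hard direction.** An omega-stable complete theory without
Vaughtian pairs is categorical in every uncountable size. -/
theorem categorical_of_not_hasVaughtianPair [Countable L.Symbols] (hT : T.IsComplete)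
    (M₀ : Theory.ModelType.{u, v, max u v} T) [Infinite M₀] (hst : IsOmegaStable T)
    (hVP : ¬HasVaughtianPair T) {μ : Cardinal.{max u v}} (hμ : ℵ₀ < μ) : μ.Categorical T := by
  classical
  intro M N hM hN
  obtain ⟨k, θ, t, ht⟩ := exists_stronglyMinimal_set hT M₀ hst hVP
  obtain ⟨b, hb, hD⟩ := ht M
  obtain ⟨b', hb', hD'⟩ := ht N
  have hsize : ∀ (K : Theory.ModelType.{u, v, max u v} T) (c : Fin k → K),
      (solSet θ c).Infinite → #(solSet θ c) = #K := fun K c hc => by
    let φ : PFormula L K := ⟨k, θ.relabel (Sum.elim Fin.castSucc fun _ => Fin.last k), c⟩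
    have hφ : solutions id φ = solSet θ c := by
      ext y
      show Holds id φ y ↔ _
      simp only [Holds, φ, Formula.realize_relabel, mem_solSet]
      exact iff_of_eq (congrArg _ (funext fun i => by rcases i with i | i <;> simp))
    rw [← hφ] at hc ⊢
    exact mk_solutions_eq hVP K φ hc
  obtain ⟨R₁, hpar, hR₁, hdom, himg⟩ := exists_map_minimal (hb.symm.trans hb') hD hD' hμ
    ((hsize M b hD.1).trans hM) ((hsize N b' hD'.1).trans hN)
  obtain ⟨e, -, honto⟩ := exists_embedding_of_acl hst hVP M N hD.1 hR₁ hpar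
    (hdom.trans (subset_acl _))
  exact ⟨⟨Equiv.ofBijective e ⟨e.injective, honto hD'.1 (himg.trans (subset_acl _))⟩,
    fun {m} g x => e.map_fun g x, fun {m} R x => e.map_rel R x⟩⟩

end FA.TwoCardinal
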