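import Fermat.Agent.TwoCardinal.Maps
import Fermat.Agent.Morley.Saturation

/-!
# The chain of Vaught

A countable closed part of a rich pair gives a chain of length `ℵ₁` of copies of it inside the
big structure, none of which adds a solution of the formula of the pair.
-/

set_option autoImplicit false

universe u v w

namespace FA.TwoCardinal

open FirstOrder Language Cardinal Set FA.Morley FA.StronglyMinimal

variable {L : Language.{u, v}}

/-- A countable part of a rich pair closed under witnesses and under extension of finite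
elementary maps, the latter inside the small set when possible. -/
theorem exists_closed_part [Countable L.Symbols] {K : Type w} [L.Structure K] {E : Set K}
    (hK : IsRichSet L (univ : Set K)) (hE : IsRichSet L E) {B : Set K} (hB : B.Countable)
    (hBne : B.Nonempty) :
    ∃ A : Set K, A.Countable ∧ B ⊆ A ∧
      (∀ φ : PFormula L A, (∃ a, Holds Subtype.val φ a) → ∃ x : A, Holds Subtype.val φ x.1) ∧
      ∀ R : Finset (K × K), IsPartialElementary L (R : Set (K × K)) →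
        (∀ p ∈ R, p.1 ∈ A ∧ p.2 ∈ A) → ∀ x ∈ A, ∃ y ∈ A, ((∀ p ∈ R, p.2 ∈ E) → y ∈ E) ∧
          IsPartialElementary L (insert (x, y) (R : Set (K × K))) := by
  classical
  obtain ⟨b₀, hb₀⟩ := hBne
  let w₁ : PFormula L K → K := fun φ =>
    if h : ∃ a, Holds id φ a then h.choose else b₀
  have hw₂ : ∀ (R : Finset (K × K)) (x : K), ∃ y, IsPartialElementary L (R : Set (K × K)) →
      ((∀ p ∈ R, p.2 ∈ E) → y ∈ E) ∧
        IsPartialElementary L (insert (x, y) (R : Set (K × K))) := by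
    intro R x
    by_cases hR : IsPartialElementary L (R : Set (K × K))
    · by_cases hRE : ∀ p ∈ R, p.2 ∈ E
      · obtain ⟨y, hy, hins⟩ := exists_insert_rich hE R.countable_toSet hR
          (image_subset_iff.2 hRE) x
        exact ⟨y, fun _ => ⟨fun _ => hy, hins⟩⟩
      · obtain ⟨y, -, hins⟩ :=
          exists_insert_rich hK R.countable_toSet hR (subset_univ _) x
        exact ⟨y, fun _ => ⟨fun h => absurd h hRE, hins⟩⟩
    · exact ⟨b₀, fun h => absurd h hR⟩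
  choose w₂ hw₂ using hw₂
  let next : Set K → Set K := fun X => X ∪
    range (fun φ : PFormula L X => w₁ (mapParams Subtype.val φ)) ∪
    range fun q : Finset (X × X) × X =>
      w₂ (q.1.map ((Function.Embedding.subtype _).prodMap (Function.Embedding.subtype _))) q.2
  let C : ℕ → Set K := fun n => Nat.rec (motive := fun _ => Set K) B (fun _ X => next X) n
  have hcount : ∀ n, (C n).Countable := fun n => by
    induction n with
    | zero => exact hB
    | succ n ih =>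
      have := ih.to_subtype
      exact (ih.union (countable_range _)).union (countable_range _)
  have hmono : Monotone C :=
    monotone_nat_of_le_succ fun n => subset_union_left.trans subset_union_left
  have hstage : ∀ s : Finset K, (∀ a ∈ s, a ∈ ⋃ n, C n) → ∃ n, ∀ a ∈ s, a ∈ C n := fun s hs => by
    choose n hn using fun a : s => mem_iUnion.1 (hs a.1 a.2)
    exact ⟨Finset.univ.sup n, fun a ha =>
      hmono (Finset.le_sup (Finset.mem_univ _)) (hn ⟨a, ha⟩)⟩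
  refine ⟨⋃ n, C n, countable_iUnion hcount, subset_iUnion_of_subset 0 subset_rfl,
    fun φ hφ => ?_, fun R hR hRA x hx => ?_⟩
  · obtain ⟨n, hn⟩ := hstage (Finset.univ.image fun j => (φ.2.2 j).1) fun a ha => by
      obtain ⟨j, -, rfl⟩ := Finset.mem_image.1 ha
      exact (φ.2.2 j).2
    let φ' : PFormula L (C n) :=
      ⟨φ.1, φ.2.1, fun j => ⟨(φ.2.2 j).1, hn _ (Finset.mem_image_of_mem _ (Finset.mem_univ j))⟩⟩
    have hex : ∃ a, Holds id (mapParams Subtype.val φ') a := hφ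
    refine ⟨⟨w₁ (mapParams Subtype.val φ'),
      mem_iUnion.2 ⟨n + 1, .inl (.inr ⟨φ', rfl⟩)⟩⟩, ?_⟩
    show Holds Subtype.val φ (w₁ (mapParams Subtype.val φ'))
    simp only [w₁, dif_pos hex]
    exact hex.choose_spec
  · obtain ⟨n, hn⟩ := hstage (insert x (R.image Prod.fst ∪ R.image Prod.snd)) fun a ha => by
      rcases Finset.mem_insert.1 ha with rfl | ha
      · exact hx
      rcases Finset.mem_union.1 ha with ha | ha <;> obtain ⟨p, hp, rfl⟩ := Finset.mem_image.1 ha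
      exacts [(hRA p hp).1, (hRA p hp).2]
    have hxn := hn x (Finset.mem_insert_self _ _)
    have hRn : ∀ p ∈ R, p.1 ∈ C n ∧ p.2 ∈ C n := fun p hp =>
      ⟨hn _ (Finset.mem_insert_of_mem (Finset.mem_union_left _ (Finset.mem_image_of_mem _ hp))),
        hn _ (Finset.mem_insert_of_mem (Finset.mem_union_right _ (Finset.mem_image_of_mem _ hp)))⟩
    let R' : Finset (C n × C n) :=
      R.attach.image fun p => (⟨p.1.1, (hRn p.1 p.2).1⟩, ⟨p.1.2, (hRn p.1 p.2).2⟩)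
    have e :
        R'.map ((Function.Embedding.subtype _).prodMap (Function.Embedding.subtype _)) = R := by
      ext p
      simp only [R', Finset.mem_map, Finset.mem_image, Finset.mem_attach, true_and]
      constructor
      · rintro ⟨q, ⟨a, rfl⟩, rfl⟩
        exact a.2
      · exact fun hp => ⟨_, ⟨⟨p, hp⟩, rfl⟩, rfl⟩
    refine ⟨w₂ R x, mem_iUnion.2 ⟨n + 1, .inr ⟨(R', ⟨x, hxn⟩), ?_⟩⟩, hw₂ R x hR⟩
    show w₂ (R'.map _) x = w₂ R x
    rw [e]

section Chain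

variable {K : Type w} [L.Structure K] {E A : Set K} {k : ℕ} {b : Fin k → K}

/-- A copy of the closed part fixing the parameters. -/
def IsCopy (L : Language.{u, v}) {K : Type w} [L.Structure K] (A : Set K) {k : ℕ}
    (b : Fin k → K) (S : Set K) : Prop :=
  ∃ R : Set (K × K), (range fun j => (b j, b j)) ⊆ R ∧ IsPartialElementary L R ∧
    Prod.fst '' R = A ∧ Prod.snd '' R = S

theorem IsCopy.countable (hAc : A.Countable) {S : Set K} (h : IsCopy L A b S) : S.Countable := by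
  obtain ⟨R, -, hR, hfst, rfl⟩ := h
  have hinj : InjOn Prod.fst R := fun p hp q hq hpq =>
    Prod.ext hpq ((hR.left_unique hp hq).1 hpq)
  exact (countable_of_injective_of_countable_image hinj (hfst ▸ hAc)).image _

/-- The properties of the closed part. -/
structure IsBase (L : Language.{u, v}) {K : Type w} [L.Structure K] (E A : Set K) {k : ℕ}
    (b : Fin k → K) : Prop where
  rich : IsRichSet L (univ : Set K)
  countable : A.Countable
  params : ∀ j, b j ∈ A ∧ b j ∈ E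
  closed : ∀ φ : PFormula L A, (∃ a, Holds Subtype.val φ a) → ∃ x : A, Holds Subtype.val φ x.1
  extend : ∀ R : Finset (K × K), IsPartialElementary L (R : Set (K × K)) →
    (∀ p ∈ R, p.1 ∈ A ∧ p.2 ∈ A) → ∀ x ∈ A, ∃ y ∈ A, ((∀ p ∈ R, p.2 ∈ E) → y ∈ E) ∧
      IsPartialElementary L (insert (x, y) (R : Set (K × K)))

theorem IsBase.isCopy_inter (hA : IsBase L E A b) : IsCopy L A b (A ∩ E) := by
  classical
  obtain ⟨R, hR₀, hR, h1, h2⟩ := exists_back_forth hA.countable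
    (hA.countable.mono inter_subset_left) (Finset.univ.image fun j => (b j, b j))
    (partialElementary_diag fun p hp => by
      obtain ⟨j, -, rfl⟩ := Finset.mem_image.1 hp
      rfl)
    (fun p hp => by
      obtain ⟨j, -, rfl⟩ := Finset.mem_image.1 hp
      exact ⟨(hA.params j).1, hA.params j⟩)
    (fun R hR _ hRS x hx => by
      obtain ⟨y, hy, hyE, hins⟩ := hA.extend R hR (fun p hp => ⟨(hRS p hp).1, (hRS p hp).2.1⟩) x hx
      exact ⟨y, ⟨hy, hyE fun p hp => (hRS p hp).2.2⟩, hins⟩)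
    fun R hR _ hRS y hy => by
      have hR' : IsPartialElementary L ((R.image Prod.swap : Finset (K × K)) : Set (K × K)) := by
        rw [Finset.coe_image]
        exact hR.swap
      obtain ⟨x, hx, -, hins⟩ := hA.extend (R.image Prod.swap) hR' (fun p hp => by
        obtain ⟨q, hq, rfl⟩ := Finset.mem_image.1 hp
        exact ⟨(hRS q hq).2.1, (hRS q hq).1⟩) y hy.1
      refine ⟨x, hx, ?_⟩
      have := hins.swap
      rw [image_insert_eq, Finset.coe_image, image_image] at this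
      simpa using this
  exact ⟨R, fun p ⟨j, hj⟩ => hR₀ (by simp [← hj]), hR, h1, h2⟩

theorem IsBase.isCopy_sUnion (hA : IsBase L E A b) {c : Set (Set K)} (hc : c.Countable)
    (hne : c.Nonempty) (hdir : DirectedOn (· ⊆ ·) c) (hcopy : ∀ S ∈ c, IsCopy L A b S) :
    IsCopy L A b (⋃₀ c) := by
  classical
  obtain ⟨S₁, hS₁⟩ := hne
  have hbS : ∀ j, b j ∈ ⋃₀ c := fun j => by
    obtain ⟨Q, hQ₀, -, -, hQ⟩ := hcopy S₁ hS₁
    exact ⟨S₁, hS₁, hQ ▸ ⟨_, hQ₀ ⟨j, rfl⟩, rfl⟩⟩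
  -- pull a finite map back to the closed part along one of the copies
  have pull : ∀ (R : Finset (K × K)) (y : K), IsPartialElementary L (R : Set (K × K)) →
      (∀ p ∈ R, p.1 ∈ A ∧ p.2 ∈ ⋃₀ c) → y ∈ ⋃₀ c →
      ∃ S ∈ c, ∃ (Q : Set (K × K)) (R' : Finset (K × K)), IsPartialElementary L Q ∧
        Prod.fst '' Q = A ∧ Prod.snd '' Q = S ∧ y ∈ S ∧
        IsPartialElementary L (R' : Set (K × K)) ∧ (∀ p ∈ R', p.1 ∈ A ∧ p.2 ∈ A) ∧
        ∀ p ∈ R, ∃ m, (p.1, m) ∈ R' ∧ (m, p.2) ∈ Q := by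
    intro R y hR hRS hy
    obtain ⟨S, hS, hsub⟩ := hdir.exists_mem_subset_of_finite_of_subset_sUnion ⟨S₁, hS₁⟩
      (s := ((insert y (R.image Prod.snd) : Finset K) : Set K)) (Finset.finite_toSet _)
      fun a ha => by
        rcases Finset.mem_insert.1 ha with rfl | ha
        · exact hy
        obtain ⟨p, hp, rfl⟩ := Finset.mem_image.1 ha
        exact (hRS p hp).2
    obtain ⟨Q, -, hQ, hQ1, hQ2⟩ := hcopy S hS
    have hm : ∀ p : R, ∃ m, (m, p.1.2) ∈ Q := fun p => by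
      obtain ⟨⟨a, b⟩, hab, rfl⟩ : p.1.2 ∈ Prod.snd '' Q := hQ2 ▸ hsub (Finset.mem_insert_of_mem
        (Finset.mem_image_of_mem _ p.2))
      exact ⟨a, hab⟩
    choose m hm using hm
    refine ⟨S, hS, Q, R.attach.image fun p => (p.1.1, m p), hQ, hQ1, hQ2,
      hsub (Finset.mem_insert_self _ _), ?_, fun p hp => ?_, fun p hp =>
        ⟨m ⟨p, hp⟩, Finset.mem_image.2 ⟨⟨p, hp⟩, Finset.mem_attach _ _, rfl⟩, hm ⟨p, hp⟩⟩⟩
    · refine partialElementary_comp hR hQ.swap fun q hq => ?_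
      obtain ⟨p, -, rfl⟩ := Finset.mem_image.1 hq
      exact ⟨p.1.2, p.2, (m p, p.1.2), hm p, rfl⟩
    · obtain ⟨q, -, rfl⟩ := Finset.mem_image.1 hp
      exact ⟨(hRS q.1 q.2).1, hQ1 ▸ ⟨_, hm q, rfl⟩⟩
  obtain ⟨R, hR₀, hR, h1, h2⟩ := exists_back_forth hA.countable
    (hc.sUnion fun S hS => (hcopy S hS).countable hA.countable)
    (Finset.univ.image fun j => (b j, b j))
    (partialElementary_diag fun p hp => by
      obtain ⟨j, -, rfl⟩ := Finset.mem_image.1 hp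
      rfl)
    (fun p hp => by
      obtain ⟨j, -, rfl⟩ := Finset.mem_image.1 hp
      exact ⟨(hA.params j).1, hbS j⟩)
    (fun R hR _ hRS x hx => by
      obtain ⟨y₁, hy₁⟩ : (⋃₀ c).Nonempty := by
        obtain ⟨Q, -, -, hQ1, hQ⟩ := hcopy S₁ hS₁
        obtain ⟨p, hp, -⟩ : x ∈ Prod.fst '' Q := hQ1 ▸ hx
        exact ⟨p.2, S₁, hS₁, hQ ▸ ⟨p, hp, rfl⟩⟩
      obtain ⟨S, hS, Q, R', hQ, hQ1, hQ2, -, hR', hR'A, hcomp⟩ := pull R y₁ hR hRS hy₁
      obtain ⟨z, hz, -, hins⟩ := hA.extend R' hR' hR'A x hx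
      obtain ⟨⟨z, y⟩, hzy, rfl⟩ : z ∈ Prod.fst '' Q := hQ1 ▸ hz
      refine ⟨y, ⟨S, hS, hQ2 ▸ ⟨_, hzy, rfl⟩⟩, partialElementary_comp hins hQ fun p hp => ?_⟩
      rcases hp with rfl | hp
      · exact ⟨z, mem_insert _ _, hzy⟩
      · exact (hcomp p hp).imp fun m hm => ⟨mem_insert_of_mem _ hm.1, hm.2⟩)
    fun R hR _ hRS y hy => by
      obtain ⟨S, hS, Q, R', hQ, hQ1, hQ2, hyS, hR', hR'A, hcomp⟩ := pull R y hR hRS hy
      obtain ⟨⟨w, y⟩, hwy, rfl⟩ : y ∈ Prod.snd '' Q := hQ2 ▸ hyS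
      have hsw : IsPartialElementary L ((R'.image Prod.swap : Finset (K × K)) : Set (K × K)) := by
        rw [Finset.coe_image]
        exact hR'.swap
      obtain ⟨x, hx, -, hins⟩ := hA.extend (R'.image Prod.swap) hsw (fun p hp => by
        obtain ⟨q, hq, rfl⟩ := Finset.mem_image.1 hp
        exact ⟨(hR'A q hq).2, (hR'A q hq).1⟩) w (hQ1 ▸ ⟨_, hwy, rfl⟩)
      refine ⟨x, hx, partialElementary_comp hins.swap hQ fun p hp => ?_⟩
      rcases hp with rfl | hp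
      · exact ⟨w, ⟨(w, x), mem_insert _ _, rfl⟩, hwy⟩
      · exact (hcomp p hp).imp fun m hm => ⟨⟨(m, p.1), mem_insert_of_mem _
          (Finset.mem_coe.2 (Finset.mem_image_of_mem _ hm.1)), rfl⟩, hm.2⟩
  exact ⟨R, fun p ⟨j, hj⟩ => hR₀ (by simp [← hj]), hR, h1, h2⟩

/-- **The step of the chain.** Above countably many copies there is a strictly larger copy
without new solutions. -/
theorem IsBase.exists_larger (hA : IsBase L E A b) {ψ : L.Formula (Fin (k + 1))}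
    (hsol : solutions id (⟨k, ψ, b⟩ : PFormula L K) ⊆ E) {e : K} (he : e ∈ A) (heE : e ∉ E)
    {U : Set K} (hU : IsCopy L A b U) :
    ∃ S, IsCopy L A b S ∧ U ⊆ S ∧ (∃ x ∈ S, x ∉ U) ∧
      ∀ x ∈ S, Holds id (⟨k, ψ, b⟩ : PFormula L K) x → x ∈ U := by
  obtain ⟨Q₀, hQ₀b, hQ₀, hQ₀1, hQ₀2⟩ := hA.isCopy_inter
  obtain ⟨Q, hQb, hQ, hQ1, hQ2⟩ := hU
  let R₁ : Set (K × K) := {p | ∃ a, (a, p.1) ∈ Q₀ ∧ (a, p.2) ∈ Q}
  have hR₁ : IsPartialElementary L R₁ := partialElementary_comp hQ₀.swap hQ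
    fun p ⟨a, h1, h2⟩ => ⟨a, ⟨(a, p.1), h1, rfl⟩, h2⟩
  have hR₁dom : ∀ x ∈ A ∩ E, ∃ y ∈ U, (x, y) ∈ R₁ := fun x hx => by
    obtain ⟨⟨a, x⟩, hax, rfl⟩ : x ∈ Prod.snd '' Q₀ := hQ₀2 ▸ hx
    obtain ⟨⟨a, y⟩, hay, rfl⟩ : a ∈ Prod.fst '' Q := hQ1 ▸ hQ₀1 ▸ ⟨_, hax, rfl⟩
    exact ⟨y, hQ2 ▸ ⟨_, hay, rfl⟩, a, hax, hay⟩
  have hfst : Prod.fst '' R₁ ⊆ A := by
    rintro _ ⟨p, ⟨a, h1, -⟩, rfl⟩
    exact (hQ₀2.le ⟨_, h1, rfl⟩ : p.1 ∈ A ∩ E).1
  have hcount : R₁.Countable := by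
    have hinj : InjOn Prod.fst R₁ := fun p hp q hq hpq =>
      Prod.ext hpq ((hR₁.left_unique hp hq).1 hpq)
    exact countable_of_injective_of_countable_image hinj (hA.countable.mono hfst)
  obtain ⟨R, hR₁R, hR, -, hR1⟩ := exists_extend_domain hA.rich hcount hR₁ hA.countable hfst
  have hbR : (range fun j => (b j, b j)) ⊆ R := by
    rintro _ ⟨j, rfl⟩
    exact hR₁R ⟨b j, hQ₀b ⟨j, rfl⟩, hQb ⟨j, rfl⟩⟩
  refine ⟨Prod.snd '' R, ⟨R, hbR, hR, hR1, rfl⟩, fun y hy => ?_, ?_, ?_⟩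
  · obtain ⟨⟨a, y⟩, hay, rfl⟩ : y ∈ Prod.snd '' Q := hQ2 ▸ hy
    obtain ⟨⟨a, x⟩, hax, rfl⟩ : a ∈ Prod.fst '' Q₀ := hQ₀1 ▸ hQ1 ▸ ⟨_, hay, rfl⟩
    exact ⟨(x, y), hR₁R ⟨a, hax, hay⟩, rfl⟩
  · obtain ⟨⟨e, y⟩, hey, rfl⟩ : e ∈ Prod.fst '' R := hR1 ▸ he
    refine ⟨y, ⟨_, hey, rfl⟩, fun hyU => heE ?_⟩
    obtain ⟨⟨a, y⟩, hay, rfl⟩ : y ∈ Prod.snd '' Q := hQ2 ▸ hyU
    obtain ⟨⟨a, x⟩, hax, rfl⟩ : a ∈ Prod.fst '' Q₀ := hQ₀1 ▸ hQ1 ▸ ⟨_, hay, rfl⟩
    have hxy : (x, y) ∈ R := hR₁R ⟨a, hax, hay⟩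
    have hxe : x = e := (hR.left_unique hxy hey).2 rfl
    exact hxe ▸ (hQ₀2.le ⟨(a, x), hax, rfl⟩ : x ∈ A ∩ E).2
  · rintro _ ⟨⟨a, y⟩, hay, rfl⟩ hy
    have hiff := ElemEquiv.holds_iff hR (⟨k, ψ, id⟩ : PFormula L (Fin k))
      (fun j => (⟨(b j, b j), hbR ⟨j, rfl⟩⟩ : R)) ⟨(a, y), hay⟩
    have haE : a ∈ E := hsol (hiff.2 hy)
    obtain ⟨y', hy', hay'⟩ := hR₁dom a ⟨hR1 ▸ ⟨_, hay, rfl⟩, haE⟩
    exact (hR.left_unique hay (hR₁R hay')).1 rfl ▸ hy'

end Chain

variable {T : L.Theory}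

/-- **Vaught's chain.** A proper elementary substructure with growing definable sets inside gives
a model of size `ℵ₁` in which such a set is countable. -/
theorem exists_aleph_one_model [Countable L.Symbols] (N : Theory.ModelType.{u, v, max u v} T)
    (S : L.ElementarySubstructure N) (hS : (S : Set N) ≠ Set.univ) {k : ℕ}
    (ψ : L.Formula (Fin (k + 1))) (a : ℕ → Fin k → N) (ha : ∀ n j, a n j ∈ S)
    (hsub : ∀ n, solutions id (⟨k, ψ, a n⟩ : PFormula L N) ⊆ S)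
    (hbig : ∀ n : ℕ, (n : ℕ∞) ≤ (solutions id (⟨k, ψ, a n⟩ : PFormula L N)).encard) :
    ∃ (M : Theory.ModelType.{u, v, max u v} T) (b : Fin k → M),
      #M = ℵ_ 1 ∧ #(solutions id (⟨k, ψ, b⟩ : PFormula L M)) = ℵ₀ := by
  classical
  obtain ⟨K, E, b, hK, hE, -, hEne, hbE, hsol, hinf⟩ := exists_richPair N S hS ψ a ha hsub hbig
  obtain ⟨c, hc⟩ := (Set.ne_univ_iff_exists_notMem _).1 hEne
  let D : Set K := range fun n => (hinf.natEmbedding _ n).1
  obtain ⟨A, hAc, hBA, hclosed, hext⟩ := exists_closed_part hK hE (B := range b ∪ {c} ∪ D)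
    (((countable_range b).union (countable_singleton c)).union (countable_range _))
    ⟨c, .inl (.inr rfl)⟩
  have hA : IsBase L E A b :=
    ⟨hK, hAc, fun j => ⟨hBA (.inl (.inl ⟨j, rfl⟩)), hbE j⟩, hclosed, hext⟩
  let prevs : StepIndex.{max u v} → (StepIndex.{max u v} → Set K) → Set (Set K) := fun i G =>
    insert (A ∩ E) (G '' Iio i)
  let step : Set (Set K) → Set K := fun P =>
    if h : ∃ S, IsCopy L A b S ∧ ⋃₀ P ⊆ S ∧ (∃ x ∈ S, x ∉ ⋃₀ P) ∧
      ∀ x ∈ S, Holds id (⟨k, ψ, b⟩ : PFormula L K) x → x ∈ ⋃₀ P then h.choose else ∅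
  let G : StepIndex.{max u v} → Set K :=
    wellFounded_lt.fix fun i rec => step (insert (A ∩ E) (⋃ (j) (h : j < i), {rec j h}))
  have hG : ∀ i, G i = step (prevs i G) := fun i => by
    simp only [G, prevs]
    rw [WellFounded.fix_eq]
    congr 2
    ext S
    simp [eq_comm]
  have hgood : ∀ i, IsCopy L A b (G i) ∧ ⋃₀ prevs i G ⊆ G i ∧ (∃ x ∈ G i, x ∉ ⋃₀ prevs i G) ∧
      ∀ x ∈ G i, Holds id (⟨k, ψ, b⟩ : PFormula L K) x → x ∈ A ∩ E := by
    intro i
    induction i using WellFoundedLT.induction with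
    | ind i ih =>
      have hcount : (prevs i G).Countable := by
        refine (Set.Countable.image ?_ _).insert _
        have hlt : #(Iio i) < ℵ_ 1 :=
          (mk_Iio_lt i (by rw [mk_ord_toType, Ordinal.type_toType])).trans_eq (mk_ord_toType _)
        exact le_aleph0_iff_set_countable.1 (not_lt.1 fun h => hlt.not_ge (aleph_one_le_iff.2 h))
      have hbase : ∀ j < i, A ∩ E ⊆ G j := fun j hj =>
        (subset_sUnion_of_mem (mem_insert _ _)).trans (ih j hj).2.1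
      have hdir : DirectedOn (· ⊆ ·) (prevs i G) := by
        have hmono : ∀ j < i, ∀ l < i, j ≤ l → G j ⊆ G l := fun j _ l hl hjl => by
          rcases hjl.eq_or_lt with rfl | hlt
          · exact subset_rfl
          · exact (subset_sUnion_of_mem (show G j ∈ prevs l G from
              mem_insert_of_mem _ ⟨j, hlt, rfl⟩)).trans (ih l hl).2.1
        rintro X (rfl | ⟨j, hj, rfl⟩) Y (rfl | ⟨l, hl, rfl⟩)
        · exact ⟨A ∩ E, mem_insert _ _, subset_rfl, subset_rfl⟩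
        · exact ⟨G l, mem_insert_of_mem _ ⟨l, hl, rfl⟩, hbase l hl, subset_rfl⟩
        · exact ⟨G j, mem_insert_of_mem _ ⟨j, hj, rfl⟩, subset_rfl, hbase j hj⟩
        · rcases le_total j l with h | h
          · exact ⟨G l, mem_insert_of_mem _ ⟨l, hl, rfl⟩, hmono j hj l hl h, subset_rfl⟩
          · exact ⟨G j, mem_insert_of_mem _ ⟨j, hj, rfl⟩, subset_rfl, hmono l hl j hj h⟩
      have hcopy : ∀ X ∈ prevs i G, IsCopy L A b X := by
        rintro X (rfl | ⟨j, hj, rfl⟩)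
        exacts [hA.isCopy_inter, (ih j hj).1]
      have hex := hA.exists_larger hsol (hBA (.inl (.inr rfl))) hc
        (hA.isCopy_sUnion hcount ⟨_, mem_insert _ _⟩ hdir hcopy)
      have e : G i = hex.choose := by rw [hG i]; exact dif_pos hex
      obtain ⟨h1, h2, h3, h4⟩ := hex.choose_spec
      rw [e]
      refine ⟨h1, h2, h3, fun x hx hxs => ?_⟩
      obtain ⟨X, hX, hxX⟩ := h4 x hx hxs
      rcases hX with rfl | ⟨j, hj, rfl⟩
      exacts [hxX, (ih j hj).2.2.2 x hxX hxs]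
  have hbase : ∀ i, A ∩ E ⊆ G i := fun i =>
    (subset_sUnion_of_mem (mem_insert _ _)).trans (hgood i).2.1
  have hmono : ∀ i j, i ≤ j → G i ⊆ G j := fun i j hij => by
    rcases hij.eq_or_lt with rfl | hlt
    · exact subset_rfl
    · exact (subset_sUnion_of_mem (show G i ∈ prevs j G from
        mem_insert_of_mem _ ⟨i, hlt, rfl⟩)).trans (hgood j).2.1
  choose new hnew hnew' using fun i => (hgood i).2.2.1
  have hnewinj : Function.Injective new := fun i j hij => by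
    by_contra hne
    rcases lt_or_gt_of_ne hne with h | h
    · exact hnew' j ⟨G i, mem_insert_of_mem _ ⟨i, h, rfl⟩, hij ▸ hnew i⟩
    · exact hnew' i ⟨G j, mem_insert_of_mem _ ⟨j, h, rfl⟩, hij ▸ hnew j⟩
  obtain ⟨i₀, -⟩ := exists_gt_of_countable (countable_empty (α := StepIndex.{max u v}))
  have : Nonempty (⋃ i, G i : Set K) := ⟨⟨new i₀, mem_iUnion.2 ⟨i₀, hnew i₀⟩⟩⟩
  obtain ⟨S', hS'⟩ := exists_elementary_range (L := L) (Subtype.val : (⋃ i, G i : Set K) → K)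
    fun φ hφ => by
      choose idx hidx using fun j => mem_iUnion.1 (φ.2.2 j).2
      obtain ⟨i, hi⟩ :=
        exists_gt_of_countable ((countable_range idx).union (countable_singleton i₀))
      have hmem : ∀ j, (φ.2.2 j).1 ∈ G i := fun j =>
        hmono _ _ (hi _ (.inl ⟨j, rfl⟩)).le (hidx j)
      obtain ⟨Q, -, hQ, hQ1, hQ2⟩ := (hgood i).1
      have hQmem : ∀ j, ∃ p : Q, p.1.2 = (φ.2.2 j).1 := fun j => by
        obtain ⟨p, hp, hp'⟩ : (φ.2.2 j).1 ∈ Prod.snd '' Q := hQ2 ▸ hmem j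
        exact ⟨⟨p, hp⟩, hp'⟩
      choose t ht using hQmem
      let φA : PFormula L A := ⟨φ.1, φ.2.1, fun j => ⟨(t j).1.1, hQ1 ▸ ⟨_, (t j).2, rfl⟩⟩⟩
      let φQ : PFormula L Q := ⟨φ.1, φ.2.1, t⟩
      have hφQ : ∀ a, Holds (fun p : Q => p.1.2) φQ a ↔ Holds Subtype.val φ a := fun a => by
        simp only [Holds, φQ]
        rw [show (fun p : Q => p.1.2) ∘ t = Subtype.val ∘ φ.2.2 from funext ht]
      obtain ⟨a, ha⟩ := (hQ.exists_holds φQ).2 (hφ.imp fun a ha => (hφQ a).2 ha)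
      obtain ⟨⟨x, hxA⟩, hx⟩ := hclosed φA ⟨a, ha⟩
      obtain ⟨⟨x, y⟩, hxy, rfl⟩ : x ∈ Prod.fst '' Q := hQ1 ▸ hxA
      refine ⟨⟨y, mem_iUnion.2 ⟨i, hQ2 ▸ ⟨_, hxy, rfl⟩⟩⟩, (hφQ y).1 ?_⟩
      exact (ElemEquiv.holds_iff hQ φQ id ⟨(x, y), hxy⟩).1 hx
  rw [Subtype.range_coe] at hS'
  have : Nonempty S' := by
    obtain ⟨x⟩ := this
    exact ⟨⟨x.1, by rw [← SetLike.mem_coe, hS']; exact x.2⟩⟩
  let M := Theory.ModelType.of T S'
  have hmemS : ∀ {x : K}, x ∈ S' ↔ ∃ i, x ∈ G i := fun {x} => by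
    rw [← SetLike.mem_coe, hS', mem_iUnion]
  have hbM : ∀ j, b j ∈ S' := fun j =>
    hmemS.2 ⟨i₀, hbase i₀ (hA.params j)⟩
  refine ⟨M, fun j => ⟨b j, hbM j⟩, le_antisymm ?_ ?_, le_antisymm ?_ ?_⟩
  · have e : #M = #(⋃ i, G i : Set K) := by
      show #(S' : Set K) = _
      rw [hS']
    rw [e]
    refine (mk_iUnion_le _).trans ?_
    rw [mk_ord_toType]
    refine (mul_le_mul' le_rfl (ciSup_le' fun i =>
      ((hgood i).1.countable hAc).le_aleph0)).trans ?_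
    rw [mul_eq_left (aleph0_le_aleph 1) (aleph0_le_aleph 1) aleph0_ne_zero]
  · rw [← mk_ord_toType (ℵ_ 1)]
    exact mk_le_of_injective (f := fun i => (⟨new i, hmemS.2 ⟨i, hnew i⟩⟩ : M))
      fun i j h => hnewinj (congrArg Subtype.val h)
  · have hsub' : Subtype.val '' solutions id (⟨k, ψ, fun j => ⟨b j, hbM j⟩⟩ : PFormula L M) ⊆
        A ∩ E := by
      rintro _ ⟨x, hx, rfl⟩
      obtain ⟨i, hi⟩ := hmemS.1 x.2
      refine (hgood i).2.2.2 x.1 hi ?_
      have := (elemEquiv_map S'.subtype (id : M → M)).holds_iff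
        (⟨k, ψ, id⟩ : PFormula L (Fin k)) (fun j => (⟨b j, hbM j⟩ : M)) x
      exact this.1 hx
    exact le_aleph0_iff_set_countable.2 (countable_of_injective_of_countable_image
      Subtype.val_injective.injOn ((hAc.mono inter_subset_left).mono hsub'))
  · have hd : ∀ n, (hinf.natEmbedding _ n).1 ∈ S' := fun n =>
      hmemS.2 ⟨i₀, hbase i₀ ⟨hBA (.inr ⟨n, rfl⟩), hsol (hinf.natEmbedding _ n).2⟩⟩
    refine infinite_iff.1 (Infinite.of_injective
      (fun n : ℕ => (⟨⟨_, hd n⟩, ?_⟩ :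
        solutions id (⟨k, ψ, fun j => ⟨b j, hbM j⟩⟩ : PFormula L M))) ?_)
    · have := (elemEquiv_map S'.subtype (id : M → M)).holds_iff
        (⟨k, ψ, id⟩ : PFormula L (Fin k)) (fun j => (⟨b j, hbM j⟩ : M)) ⟨_, hd n⟩
      exact this.2 (hinf.natEmbedding _ n).2
    · exact fun m n h => (hinf.natEmbedding _).injective
        (Subtype.ext (congrArg (fun x => x.1.1) h))

end FA.TwoCardinal
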