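import Fermat.Agent.TwoCardinal.Chain
import Fermat.Agent.Morley.Stability

/-!
# Theories without Vaughtian pairs

Without Vaughtian pairs infinite definable sets have full size and the finite ones are uniformly
bounded.
-/

set_option autoImplicit false

universe u v w w' x

namespace FA.TwoCardinal

open FirstOrder Language Cardinal Set FA.Morley FA.StronglyMinimal

variable {L : Language.{u, v}} {T : L.Theory}

theorem natCast_le_encard_solSet_iff {P : Type x} {M : Type w} [L.Structure M] {n : ℕ}
    {χ : L.Formula (P ⊕ Fin 1)} {f : P → M} :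
    (n : ℕ∞) ≤ Set.encard (solSet χ f) ↔ (atLeast n χ).Realize f := by
  rw [realize_atLeast]
  constructor
  · intro h
    obtain ⟨t, ht, htn⟩ := exists_subset_encard_eq h
    have htfin : t.Finite := finite_of_encard_eq_coe htn
    have hcard : htfin.toFinset.card = n := by
      rw [htfin.encard_eq_coe_toFinset_card] at htn
      exact_mod_cast htn
    exact ⟨fun i => (htfin.toFinset.equivFinOfCardEq hcard).symm i,
      Subtype.val_injective.comp (Equiv.injective _),
      fun i => ht (htfin.mem_toFinset.1 ((htfin.toFinset.equivFinOfCardEq hcard).symm i).2)⟩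
  · rintro ⟨z, hz, hmem⟩
    calc (n : ℕ∞) = Set.encard (range z) := by
          rw [← image_univ, hz.injOn.encard_image, encard_univ, ENat.card_eq_coe_fintype_card,
            Fintype.card_fin]
      _ ≤ _ := encard_le_encard (range_subset_iff.2 hmem)

theorem encard_solSet_congr {P : Type x} {M : Type w} [L.Structure M] {N : Type w'}
    [L.Structure N] {f : P → M} {g : P → N} (h : ElemEquiv L f g)
    (χ : L.Formula (P ⊕ Fin 1)) : Set.encard (solSet χ f) = Set.encard (solSet χ g) :=
  ENat.eq_of_forall_natCast_le_iff fun n => by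
    rw [natCast_le_encard_solSet_iff, natCast_le_encard_solSet_iff, elemEquiv_realize h]

/-- What some tuple satisfies in one model of a complete theory, some tuple satisfies in each. -/
theorem exists_realize_transfer (hT : T.IsComplete)
    (M N : Theory.ModelType.{u, v, max u v} T) {P : Type} [Finite P] (θ : L.Formula P)
    (h : ∃ a : P → M, θ.Realize a) : ∃ b : P → N, θ.Realize b := by
  have key : ∀ K : Theory.ModelType.{u, v, max u v} T,
      (∃ b : P → K, θ.Realize b) ↔ K ⊨ ((θ.relabel Sum.inr).iExs P : L.Sentence) := fun K => by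
    rw [Sentence.Realize, Formula.realize_iExs]
    exact exists_congr fun z => by rw [Formula.realize_relabel, Sum.elim_comp_inr]
  rw [key, hT.realize_sentence_iff] at *
  exact h

/-- An infinite model is a proper elementary substructure of another one. -/
theorem exists_proper_extension [Countable L.Symbols] (M : Theory.ModelType.{u, v, max u v} T)
    [Infinite M] :
    ∃ (N : Theory.ModelType.{u, v, max u v} T) (e : M ↪ₑ[L] N) (S : L.ElementarySubstructure N),
      (S : Set N) = range e ∧ (S : Set N) ≠ Set.univ := by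
  obtain ⟨N₀, ⟨e₀⟩, hN₀⟩ := exists_elementaryEmbedding_card_eq_of_ge L M (Order.succ #M)
    (by simpa using card_language_le.trans ((aleph0_le_mk M).trans (Order.le_succ _)))
    (by simpa using Order.le_succ #M)
  have : N₀ ⊨ T := (e₀.theory_model_iff T).1 M.is_model
  have : Nonempty N₀ := ⟨e₀ (Classical.arbitrary M)⟩
  let N := Theory.ModelType.of T N₀
  obtain ⟨S, hS⟩ := exists_elementary_range (L := L) (fun a : M => (e₀ a : N)) fun φ hφ => by
    have h := (holds_existsFormula (fun a : M => (e₀ a : N)) φ).2 hφ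
    rw [show (fun a : M => (e₀ a : N)) ∘ φ.2.2 = e₀ ∘ φ.2.2 from rfl, e₀.map_formula,
      realize_existsFormula] at h
    obtain ⟨a, ha⟩ := h
    refine ⟨a, ?_⟩
    have := (e₀.map_formula φ.2.1 (Fin.snoc φ.2.2 a)).2 ha
    rw [Fin.comp_snoc] at this
    exact this
  refine ⟨N, e₀, S, hS, fun h => ?_⟩
  replace h := hS.symm.trans h
  have hle : #N₀ ≤ #M := mk_le_of_surjective (range_eq_univ.1 h)
  rw [hN₀] at hle
  exact hle.not_gt (Order.lt_succ _)

/-- **Finite definable sets are uniformly bounded** without Vaughtian pairs. -/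
theorem exists_finite_bound [Countable L.Symbols] (hT : T.IsComplete)
    (M₀ : Theory.ModelType.{u, v, max u v} T) [Infinite M₀] (hVP : ¬HasVaughtianPair T) {k : ℕ}
    (χ : L.Formula (Fin k ⊕ Fin 1)) :
    ∃ n : ℕ, ∀ (M : Theory.ModelType.{u, v, max u v} T) (a : Fin k → M),
      (solSet χ a).Finite → Set.encard (solSet χ a) ≤ n := by
  by_contra! h
  obtain ⟨N, e, S, hS, hSne⟩ := exists_proper_extension M₀
  have hbad : ∀ n : ℕ, ∃ a : Fin k → M₀,
      (solSet χ a).Finite ∧ (n : ℕ∞) ≤ Set.encard (solSet χ a) := fun n => by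
    obtain ⟨M, a, hfin, hn⟩ := h n
    obtain ⟨m, hm⟩ := finite_solSet_iff.1 hfin
    obtain ⟨b, hb⟩ := exists_realize_transfer hT M M₀ (atLeast n χ ⊓ (atLeast m χ).not)
      ⟨a, Formula.realize_inf.2 ⟨natCast_le_encard_solSet_iff.1 hn.le, Formula.realize_not.2 hm⟩⟩
    rw [Formula.realize_inf, Formula.realize_not] at hb
    exact ⟨b, finite_solSet_iff.2 ⟨m, hb.2⟩, natCast_le_encard_solSet_iff.2 hb.1⟩
  choose a hafin habig using hbad
  let ψ : L.Formula (Fin (k + 1)) := χ.relabel (Sum.elim Fin.castSucc fun _ => Fin.last k)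
  have hψ : ∀ {K : Theory.ModelType.{u, v, max u v} T} (c : Fin k → K),
      solutions id (⟨k, ψ, c⟩ : PFormula L K) = solSet χ c := fun {K} c => by
    ext y
    show Holds id _ y ↔ _
    simp only [Holds, ψ, Formula.realize_relabel, mem_solSet]
    exact iff_of_eq (congrArg _ (funext fun i => by rcases i with i | i <;> simp))
  have himg : ∀ n, e '' solSet χ (a n) = solSet χ (e ∘ a n) := fun n => by
    have heq := encard_solSet_congr (elemEquiv_map e (a n)) χ
    refine Finite.eq_of_subset_of_encard_le ((hafin n).image e) ?_ ?_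
    · rintro _ ⟨y, hy, rfl⟩
      rw [mem_solSet, show Sum.elim (e ∘ a n) (fun _ : Fin 1 => e y) =
        e ∘ Sum.elim (a n) fun _ => y from (Sum.comp_elim _ _ _).symm, e.map_formula]
      exact hy
    · rw [e.injective.injOn.encard_image, heq]
  obtain ⟨K, E, b, -, -, ⟨S', hS'⟩, hEne, hbE, hsol, hinf⟩ := exists_richPair N S hSne ψ
    (fun n => e ∘ a n) (fun n j => by rw [← SetLike.mem_coe, hS]; exact ⟨_, rfl⟩)
    (fun n => by rw [hψ, ← himg, hS]; exact image_subset_range _ _)
    fun n => by rw [hψ, ← himg, e.injective.injOn.encard_image]; exact habig n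
  refine hVP ⟨K, S', ⟨k, ψ, b⟩, fun j => ?_, fun y hy => ?_, hinf, hS' ▸ hEne⟩
  · rw [← SetLike.mem_coe, hS']
    exact hbE j
  · rw [hS']
    exact hsol hy

/-- **Infinite definable sets have full size** without Vaughtian pairs. -/
theorem mk_solutions_eq [Countable L.Symbols] (hVP : ¬HasVaughtianPair T)
    (M : Theory.ModelType.{u, v, max u v} T) (φ : PFormula L M)
    (hinf : (solutions id φ).Infinite) : #(solutions id φ) = #M := by
  refine le_antisymm (mk_set_le _) (not_lt.1 fun hlt => hVP ?_)
  have hκ : ℵ₀ ≤ #(solutions id φ) := infinite_iff.1 hinf.to_subtype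
  have hsmall : #(solutions id φ ∪ range φ.2.2 : Set M) ≤ #(solutions id φ) :=
    (mk_union_le _ _).trans ((add_le_add le_rfl
      ((countable_range _).le_aleph0.trans hκ)).trans (add_eq_self hκ).le)
  obtain ⟨S, hsub, hS⟩ := exists_elementarySubstructure_card_eq L
    (solutions id φ ∪ range φ.2.2 : Set M) #(solutions id φ) hκ (by simpa using hsmall)
    (by simpa using card_language_le.trans hκ) (by simpa using hlt.le)
  refine ⟨M, S, φ, fun j => hsub (.inr ⟨j, rfl⟩), fun y hy => hsub (.inl hy), hinf, fun h => ?_⟩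
  have hcard : #(S : Set M) = #(solutions id φ) := by simpa using hS
  rw [h, mk_univ] at hcard
  exact hlt.ne hcard.symm

/-- A smaller infinite definable set gives a Vaughtian pair. -/
theorem hasVaughtianPair_of_lt [Countable L.Symbols] (M : Theory.ModelType.{u, v, max u v} T)
    (φ : PFormula L M) (h0 : ℵ₀ ≤ #(solutions id φ)) (hlt : #(solutions id φ) < #M) :
    HasVaughtianPair T :=
  by_contra fun h => hlt.ne
    (mk_solutions_eq h M φ (Set.infinite_coe_iff.1 (infinite_iff.2 h0)))

end FA.TwoCardinal
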