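import Fermat.Agent.TwoCardinal.UltraPair
import Fermat.Agent.StronglyMinimal.Models

/-!
# Countable partial elementary maps

Unions, composition, extension into rich sets and back and forth.
-/

set_option autoImplicit false

universe u v w w' x

namespace FA.TwoCardinal

open FirstOrder Language Cardinal Set FA.Morley FA.StronglyMinimal

variable {L : Language.{u, v}} {M : Type w} [L.Structure M] {N : Type w'} [L.Structure N]
  {K : Type x} [L.Structure K]

theorem partialElementary_mono {R R' : Set (M × N)} (h : IsPartialElementary L R) (hsub : R' ⊆ R) :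
    IsPartialElementary L R' :=
  h.comp fun p : R' => (⟨p.1, hsub p.2⟩ : R)

theorem partialElementary_diag {R : Set (K × K)} (h : ∀ p ∈ R, p.1 = p.2) :
    IsPartialElementary L R := by
  intro k φ t
  rw [show (fun p : R => p.1.1) = fun p : R => p.1.2 from funext fun p => h p.1 p.2]

theorem partialElementary_sUnion {c : Set (Set (M × N))} (hc : DirectedOn (· ⊆ ·) c)
    (hne : c.Nonempty) (h : ∀ R ∈ c, IsPartialElementary L R) :
    IsPartialElementary L (⋃₀ c) := by
  intro k φ t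
  obtain ⟨R, hR, hsub⟩ := hc.exists_mem_subset_of_finite_of_subset_sUnion hne
    (Set.finite_range fun j => (t j : M × N)) (Set.range_subset_iff.2 fun j => (t j).2)
  exact h R hR k φ fun j => ⟨t j, hsub ⟨j, rfl⟩⟩

theorem partialElementary_iUnion {R : ℕ → Set (M × N)} (hmono : Monotone R)
    (h : ∀ n, IsPartialElementary L (R n)) : IsPartialElementary L (⋃ n, R n) := by
  rw [← Set.sUnion_range]
  exact partialElementary_sUnion (directedOn_range.2 hmono.directed_le)
    (Set.range_nonempty R) (by rintro _ ⟨n, rfl⟩; exact h n)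

theorem partialElementary_comp {R₁ : Set (M × N)} {R₂ : Set (N × K)} {R : Set (M × K)}
    (h₁ : IsPartialElementary L R₁) (h₂ : IsPartialElementary L R₂)
    (h : ∀ p ∈ R, ∃ m, (p.1, m) ∈ R₁ ∧ (m, p.2) ∈ R₂) : IsPartialElementary L R := by
  choose m h1 h2 using fun p : R => h p.1 p.2
  exact (h₁.comp fun p : R => (⟨_, h1 p⟩ : R₁)).trans (h₂.comp fun p : R => (⟨_, h2 p⟩ : R₂))

/-- A countable map into a rich set extends to any point. -/
theorem exists_insert_rich {E : Set K} (hE : IsRichSet L E) {R : Set (M × K)} (hRc : R.Countable)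
    (hR : IsPartialElementary L R) (hsnd : Prod.snd '' R ⊆ E) (a : M) :
    ∃ y ∈ E, IsPartialElementary L (insert (a, y) R) := by
  let B : Set K := Prod.snd '' R
  choose sec hsecR hsec using fun q : B => q.2
  have hBE : ElemEquiv L (fun q : B => (sec q).1) (Subtype.val : B → K) := by
    have h := hR.comp fun q : B => (⟨sec q, hsecR q⟩ : R)
    rwa [show (fun p : R => p.1.2) ∘ (fun q : B => (⟨sec q, hsecR q⟩ : R)) = Subtype.val from
      funext hsec] at h
  obtain ⟨y, hy, hreal⟩ := hE B hsnd (hRc.image _) _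
    (hBE.isType_iff.1 (isType_typeAt (fun q : B => (sec q).1) a))
  refine ⟨y, hy, IsPartialElementary.insert_pair fun ψ => ?_⟩
  let r : R → B := fun p => ⟨p.1.2, p.1, p.2, rfl⟩
  have hfst : (fun q : B => (sec q).1) ∘ r = fun p : R => p.1.1 := funext fun p =>
    (hR.left_unique (hsecR (r p)) p.2).2 (hsec (r p))
  have h := hreal (toPFormula (ψ.relabel (Sum.map r id)))
  rw [show (toPFormula (ψ.relabel (Sum.map r id)) ∈ typeAt L (fun q : B => (sec q).1) a) =
    Holds (fun q : B => (sec q).1) (toPFormula (ψ.relabel (Sum.map r id))) a from rfl,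
    holds_toPFormula, holds_toPFormula, Formula.realize_relabel, Formula.realize_relabel,
    Sum.elim_comp_map, Sum.elim_comp_map, Function.comp_id, Function.comp_id, hfst] at h
  exact h

/-- Pairs with the extension property in both directions give a map of countable sets. -/
theorem exists_back_forth {A : Set M} {S : Set N} (hA : A.Countable) (hS : S.Countable)
    (R₀ : Finset (M × N)) (h₀ : IsPartialElementary L (R₀ : Set (M × N)))
    (h₀' : ∀ p ∈ R₀, p.1 ∈ A ∧ p.2 ∈ S)
    (forth : ∀ R : Finset (M × N), IsPartialElementary L (R : Set (M × N)) → R₀ ⊆ R →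
      (∀ p ∈ R, p.1 ∈ A ∧ p.2 ∈ S) → ∀ x ∈ A, ∃ y ∈ S,
        IsPartialElementary L (insert (x, y) (R : Set (M × N))))
    (back : ∀ R : Finset (M × N), IsPartialElementary L (R : Set (M × N)) → R₀ ⊆ R →
      (∀ p ∈ R, p.1 ∈ A ∧ p.2 ∈ S) → ∀ y ∈ S, ∃ x ∈ A,
        IsPartialElementary L (insert (x, y) (R : Set (M × N)))) :
    ∃ R : Set (M × N), (R₀ : Set (M × N)) ⊆ R ∧ IsPartialElementary L R ∧
      Prod.fst '' R = A ∧ Prod.snd '' R = S := by
  classical
  have := hA.to_subtype
  have := hS.to_subtype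
  obtain ⟨e, he⟩ := exists_surjective_nat (Option A)
  obtain ⟨e', he'⟩ := exists_surjective_nat (Option S)
  let Stage := {R : Finset (M × N) //
    IsPartialElementary L (R : Set (M × N)) ∧ R₀ ⊆ R ∧ ∀ p ∈ R, p.1 ∈ A ∧ p.2 ∈ S}
  have hstep : ∀ (n : ℕ) (R : Stage), ∃ R' : Stage, R.1 ⊆ R'.1 ∧
      (∀ x, e n = some x → ∃ y, (x.1, y) ∈ R'.1) ∧ ∀ y, e' n = some y → ∃ x, (x, y.1) ∈ R'.1 := by
    intro n R
    obtain ⟨R₁, hsub₁, h1⟩ : ∃ R₁ : Stage, R.1 ⊆ R₁.1 ∧
        ∀ x, e n = some x → ∃ y, (x.1, y) ∈ R₁.1 := by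
      rcases hx : e n with _ | x
      · exact ⟨R, subset_rfl, fun x h => absurd h (by simp)⟩
      · obtain ⟨y, hy, hins⟩ := forth R.1 R.2.1 R.2.2.1 R.2.2.2 x.1 x.2
        refine ⟨⟨insert (x.1, y) R.1, by rwa [Finset.coe_insert],
          R.2.2.1.trans (Finset.subset_insert _ _), fun p hp => ?_⟩, Finset.subset_insert _ _,
          fun x' h => ⟨y, by cases h; exact Finset.mem_insert_self _ _⟩⟩
        rcases Finset.mem_insert.1 hp with rfl | hp
        exacts [⟨x.2, hy⟩, R.2.2.2 p hp]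
    rcases hy : e' n with _ | y
    · exact ⟨R₁, hsub₁, h1, fun y h => absurd h (by simp)⟩
    · obtain ⟨x, hx, hins⟩ := back R₁.1 R₁.2.1 R₁.2.2.1 R₁.2.2.2 y.1 y.2
      refine ⟨⟨insert (x, y.1) R₁.1, by rwa [Finset.coe_insert],
        R₁.2.2.1.trans (Finset.subset_insert _ _), fun p hp => ?_⟩,
        hsub₁.trans (Finset.subset_insert _ _),
        fun z hz => (h1 z hz).imp fun _ h => Finset.mem_insert_of_mem h,
        fun y' h => ⟨x, by cases h; exact Finset.mem_insert_self _ _⟩⟩
      rcases Finset.mem_insert.1 hp with rfl | hp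
      exacts [⟨hx, y.2⟩, R₁.2.2.2 p hp]
  choose next hsub h1 h2 using hstep
  let seq : ℕ → Stage := fun n => Nat.rec ⟨R₀, h₀, subset_rfl, h₀'⟩ next n
  have hmono : Monotone fun n => ((seq n).1 : Set (M × N)) :=
    monotone_nat_of_le_succ fun n => Finset.coe_subset.2 (hsub n (seq n))
  refine ⟨⋃ n, ((seq n).1 : Set (M × N)), Set.subset_iUnion_of_subset 0 subset_rfl,
    partialElementary_iUnion hmono fun n => (seq n).2.1, ?_, ?_⟩
  · refine Set.Subset.antisymm ?_ fun x hx => ?_
    · rintro _ ⟨p, hp, rfl⟩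
      obtain ⟨n, hn⟩ := Set.mem_iUnion.1 hp
      exact ((seq n).2.2.2 p hn).1
    · obtain ⟨n, hn⟩ := he (some ⟨x, hx⟩)
      obtain ⟨y, hy⟩ := h1 n (seq n) _ hn
      exact ⟨(x, y), Set.mem_iUnion.2 ⟨n + 1, hy⟩, rfl⟩
  · refine Set.Subset.antisymm ?_ fun y hy => ?_
    · rintro _ ⟨p, hp, rfl⟩
      obtain ⟨n, hn⟩ := Set.mem_iUnion.1 hp
      exact ((seq n).2.2.2 p hn).2
    · obtain ⟨n, hn⟩ := he' (some ⟨y, hy⟩)
      obtain ⟨x, hx⟩ := h2 n (seq n) _ hn
      exact ⟨(x, y), Set.mem_iUnion.2 ⟨n + 1, hx⟩, rfl⟩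

/-- A countable map into a structure with all types over countable sets extends to a countable
domain. -/
theorem exists_extend_domain (hK : IsRichSet L (univ : Set K)) {R : Set (M × K)}
    (hRc : R.Countable) (hR : IsPartialElementary L R) {A : Set M} (hA : A.Countable)
    (hRA : Prod.fst '' R ⊆ A) :
    ∃ R', R ⊆ R' ∧ IsPartialElementary L R' ∧ R'.Countable ∧ Prod.fst '' R' = A := by
  classical
  have := hA.to_subtype
  obtain ⟨e, he⟩ := exists_surjective_nat (Option A)
  let Stage := {R' : Set (M × K) //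
    IsPartialElementary L R' ∧ R'.Countable ∧ Prod.fst '' R' ⊆ A}
  have hstep : ∀ (n : ℕ) (S : Stage), ∃ S' : Stage, S.1 ⊆ S'.1 ∧
      ∀ x, e n = some x → x.1 ∈ Prod.fst '' S'.1 := by
    intro n S
    rcases e n with _ | x
    · exact ⟨S, subset_rfl, fun x h => absurd h (by simp)⟩
    · obtain ⟨y, -, hins⟩ := exists_insert_rich hK S.2.2.1 S.2.1 (subset_univ _) x.1
      refine ⟨⟨_, hins, S.2.2.1.insert _, ?_⟩, subset_insert _ _,
        fun x' h => ⟨(x.1, y), mem_insert _ _, by cases h; rfl⟩⟩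
      rw [image_insert_eq]
      exact insert_subset x.2 S.2.2.2
  choose next hsub hcov using hstep
  let seq : ℕ → Stage := fun n => Nat.rec ⟨R, hR, hRc, hRA⟩ next n
  have hmono : Monotone fun n => (seq n).1 :=
    monotone_nat_of_le_succ fun n => hsub n (seq n)
  refine ⟨⋃ n, (seq n).1, subset_iUnion_of_subset 0 subset_rfl,
    partialElementary_iUnion hmono fun n => (seq n).2.1, countable_iUnion fun n => (seq n).2.2.1,
    Set.Subset.antisymm ?_ fun x hx => ?_⟩
  · rw [image_iUnion]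
    exact iUnion_subset fun n => (seq n).2.2.2
  · obtain ⟨n, hn⟩ := he (some ⟨x, hx⟩)
    obtain ⟨p, hp, hp'⟩ := hcov n (seq n) _ hn
    exact ⟨p, mem_iUnion.2 ⟨n + 1, hp⟩, hp'⟩

end FA.TwoCardinal
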