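import Fermat.Agent.TwoCardinal.Finiteness
import Fermat.Agent.Morley.Atomic
import Fermat.Agent.Morley.Indiscernibles

/-!
# Strongly minimal sets

An omega-stable theory without Vaughtian pairs has, in each model, a strongly minimal set whose
parameters have one type in all models.
-/

set_option autoImplicit false

universe u v w x

namespace FA.TwoCardinal

open FirstOrder Language Cardinal Set FA.Morley FA.StronglyMinimal

variable {L : Language.{u, v}} {T : L.Theory}

/-- An infinite set which every definable set meets in a finite or a cofinite part. -/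
def IsMinimalSet (L : Language.{u, v}) {M : Type w} [L.Structure M] (D : Set M) : Prop :=
  D.Infinite ∧ ∀ (l : ℕ) (ξ : L.Formula (Fin l ⊕ Fin 1)) (c : Fin l → M),
    (D ∩ solSet ξ c).Finite ∨ (D \ solSet ξ c).Finite

theorem IsMinimalSet.finite_or {M : Type w} [L.Structure M] {D : Set M} (h : IsMinimalSet L D)
    {P : Type x} (ξ : L.Formula (P ⊕ Fin 1)) (f : P → M) :
    (D ∩ solSet ξ f).Finite ∨ (D \ solSet ξ f).Finite := by
  rw [← solSet_eq_solutions, ← solSet_ofPFormula]
  exact h.2 _ _ _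

/-- In an infinite model of an omega-stable theory some definable set is minimal. -/
theorem exists_minimal_definable (hst : IsOmegaStable T)
    (M : Theory.ModelType.{u, v, max u v} T) [Infinite M] :
    ∃ θ : PFormula L M, IsMinimalSet L (solutions id θ) := by
  classical
  by_contra! h
  let Big := {θ : PFormula L M // (solutions id θ).Infinite}
  have hsplit : ∀ θ : Big, ∃ θ₁ θ₂ : Big, (∀ a, Holds id θ₁.1 a → Holds id θ.1 a) ∧
      (∀ a, Holds id θ₂.1 a → Holds id θ.1 a) ∧
      ∀ a, Holds id θ₁.1 a → ¬Holds id θ₂.1 a := fun θ => by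
    have := h θ.1
    simp only [IsMinimalSet, not_and, not_forall, not_or] at this
    obtain ⟨l, ξ, c, h1, h2⟩ := this θ.2
    let χ : PFormula L M := ⟨l, ξ.relabel (Sum.elim Fin.castSucc fun _ => Fin.last l), c⟩
    have hχ : solutions id χ = solSet ξ c := by
      ext a
      show Holds id χ a ↔ _
      simp only [Holds, χ, Formula.realize_relabel, mem_solSet]
      exact iff_of_eq (congrArg _ (funext fun i => by rcases i with i | i <;> simp))
    let meet : PFormula L M → PFormula L M := fun χ => conj fun t : Bool => cond t θ.1 χ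
    have hmeet : ∀ χ a, Holds id (meet χ) a ↔ Holds id θ.1 a ∧ Holds id χ a := fun χ a => by
      rw [holds_conj]
      exact ⟨fun h => ⟨h true, h false⟩, fun h => Bool.forall_bool.2 ⟨h.2, h.1⟩⟩
    refine ⟨⟨meet χ, fun hf => h1 (hf.subset fun a ha => ?_)⟩,
      ⟨meet (negation χ), fun hf => h2 (hf.subset fun a ha => ?_)⟩,
      fun a ha => ((hmeet _ a).1 ha).1, fun a ha => ((hmeet _ a).1 ha).1,
      fun a ha hb => (holds_negation id χ a).1 ((hmeet _ a).1 hb).2 ((hmeet _ a).1 ha).2⟩
    · exact (hmeet χ a).2 ⟨ha.1, hχ.ge ha.2⟩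
    · exact (hmeet _ a).2 ⟨ha.1, (holds_negation id χ a).2 fun hc => ha.2 (hχ.le hc)⟩
  choose θ₁ θ₂ h1 h2 h12 using hsplit
  let root : Big := ⟨conj fun i : Empty => i.elim, infinite_univ.mono fun a _ =>
    (holds_conj _ id a).2 fun i => i.elim⟩
  let node : List Bool → Big := fun s => List.rec root (fun b _ θ => cond b (θ₁ θ) (θ₂ θ)) s
  refine not_isOmegaStable_of_tree M id (fun s => (node s).1) (fun s => ?_) (fun b s a => ?_)
    (fun s a => h12 (node s) a) hst
  · exact (node s).2.nonempty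
  · cases b
    exacts [h2 (node s) a, h1 (node s) a]

/-- An isolated type is realised in every model of a complete theory. -/
theorem exists_elemEquiv_of_isolated (hT : T.IsComplete)
    (M N : Theory.ModelType.{u, v, max u v} T) {P : Type w} [IsEmpty P] {k : ℕ} {t : Fin k → M}
    (h : Isolated L (isEmptyElim : P → M) t) : ∃ b : Fin k → N, ElemEquiv L t b := by
  obtain ⟨χ, ht, hχ⟩ := h
  let χ' : L.Formula (Fin k) := χ.relabel (Sum.elim isEmptyElim id)
  have hχ' : ∀ {K : Theory.ModelType.{u, v, max u v} T} (c : Fin k → K),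
      χ'.Realize c ↔ χ.Realize (Sum.elim (isEmptyElim : P → K) c) := fun {K} c => by
    rw [Formula.realize_relabel]
    exact iff_of_eq (congrArg _ (funext fun i => by
      rcases i with i | i
      exacts [isEmptyElim i, rfl]))
  obtain ⟨b, hb⟩ := exists_realize_transfer hT M N χ' ⟨t, (hχ' t).2 ht⟩
  refine ⟨b, fun n φ a => ?_⟩
  have key : ∀ φ : L.Formula (Fin n), φ.Realize (t ∘ a) → φ.Realize (b ∘ a) := fun φ hφ => by
    by_contra hn
    obtain ⟨c, hc⟩ := exists_realize_transfer hT N M (χ' ⊓ (φ.relabel a).not)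
      ⟨b, Formula.realize_inf.2 ⟨hb, Formula.realize_not.2 fun h => hn
        (Formula.realize_relabel.1 h)⟩⟩
    obtain ⟨h1, h2⟩ := Formula.realize_inf.1 hc
    rw [Formula.realize_not, Formula.realize_relabel] at h2
    exact h2 (((hχ c ((hχ' c).1 h1)).comp Sum.inr) n φ a |>.1 hφ)
  exact ⟨key φ, fun hb' => by_contra fun ht' =>
    Formula.realize_not.1 (key φ.not (Formula.realize_not.2 ht')) hb'⟩

/-- **Minimal sets stay minimal** over parameters of the same type, without Vaughtian pairs. -/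
theorem isMinimalSet_congr [Countable L.Symbols] (hT : T.IsComplete)
    (M₀ : Theory.ModelType.{u, v, max u v} T) [Infinite M₀] (hVP : ¬HasVaughtianPair T)
    {S M : Theory.ModelType.{u, v, max u v} T} {k : ℕ} {θ : L.Formula (Fin k ⊕ Fin 1)}
    {t : Fin k → S} {b : Fin k → M} (htb : ElemEquiv L t b)
    (hmin : IsMinimalSet L (solSet θ t)) : IsMinimalSet L (solSet θ b) := by
  refine ⟨fun hfin => hmin.1 ((finite_solSet_congr htb θ).2 hfin), fun l ξ c => ?_⟩
  by_contra! hcon
  let χ₁ : L.Formula (Fin (k + l) ⊕ Fin 1) :=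
    θ.relabel (Sum.map (Fin.castAdd l) id) ⊓ ξ.relabel (Sum.map (Fin.natAdd k) id)
  let χ₂ : L.Formula (Fin (k + l) ⊕ Fin 1) :=
    θ.relabel (Sum.map (Fin.castAdd l) id) ⊓ (ξ.relabel (Sum.map (Fin.natAdd k) id)).not
  have hchi : ∀ {K : Theory.ModelType.{u, v, max u v} T} (b : Fin k → K) (c : Fin l → K),
      solSet χ₁ (Fin.append b c) = solSet θ b ∩ solSet ξ c ∧
      solSet χ₂ (Fin.append b c) = solSet θ b \ solSet ξ c := fun {K} b c => by
    have e1 : Fin.append b c ∘ Fin.castAdd l = b := funext fun i => Fin.append_left b c i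
    have e2 : Fin.append b c ∘ Fin.natAdd k = c := funext fun i => Fin.append_right b c i
    simp only [χ₁, χ₂, solSet_inf, solSet_not, solSet_relabel, e1, e2, Set.sdiff_eq, and_self]
  obtain ⟨n₁, hn₁⟩ := exists_finite_bound hT M₀ hVP χ₁
  obtain ⟨n₂, hn₂⟩ := exists_finite_bound hT M₀ hVP χ₂
  let n := max n₁ n₂
  let split : Fin (k + l) → Fin k ⊕ Fin l := Fin.addCases Sum.inl Sum.inr
  let η : L.Formula (Fin k) :=
    ((atLeast (n + 1) χ₁ ⊓ atLeast (n + 1) χ₂).relabel split).iExs (Fin l)
  have hη : ∀ {K : Theory.ModelType.{u, v, max u v} T} (b : Fin k → K),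
      η.Realize b ↔ ∃ c : Fin l → K, (((n + 1 : ℕ) : ℕ∞) ≤ Set.encard (solSet θ b ∩ solSet ξ c)) ∧
        ((n + 1 : ℕ) : ℕ∞) ≤ Set.encard (solSet θ b \ solSet ξ c) := fun {K} b => by
    simp only [η, Formula.realize_iExs, Formula.realize_relabel, Formula.realize_inf]
    refine exists_congr fun c => ?_
    have e : Sum.elim b c ∘ split = Fin.append b c := funext fun i => by
      induction i using Fin.addCases <;> simp [split]
    rw [e, ← (hchi b c).1, ← (hchi b c).2, natCast_le_encard_solSet_iff,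
      natCast_le_encard_solSet_iff]
  obtain ⟨z, hz₁, hz₂⟩ := (hη t).1 ((elemEquiv_realize htb η).2 ((hη b).2
    ⟨c, by rw [hcon.1.encard_eq]; exact le_top, by rw [hcon.2.encard_eq]; exact le_top⟩))
  have hlt : ∀ {m : ℕ}, m ≤ n → ¬((n + 1 : ℕ) : ℕ∞) ≤ m := fun hm h =>
    absurd (ENat.natCast_le_natCast.1 h) (by omega)
  rcases hmin.2 l ξ z with hf | hf
  · rw [← (hchi t z).1] at hf hz₁
    exact hlt (le_max_left n₁ n₂) (hz₁.trans (hn₁ S (Fin.append t z) hf))
  · rw [← (hchi t z).2] at hf hz₂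
    exact hlt (le_max_right n₁ n₂) (hz₂.trans (hn₂ S (Fin.append t z) hf))

/-- **A strongly minimal set.** Without Vaughtian pairs an omega-stable theory has one definable
set, over parameters of one type, which is minimal in all models. -/
theorem exists_stronglyMinimal_set [Countable L.Symbols] (hT : T.IsComplete)
    (M₀ : Theory.ModelType.{u, v, max u v} T) [Infinite M₀] (hst : IsOmegaStable T)
    (hVP : ¬HasVaughtianPair T) :
    ∃ (k : ℕ) (θ : L.Formula (Fin k ⊕ Fin 1)) (t : Fin k → M₀),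
      ∀ M : Theory.ModelType.{u, v, max u v} T,
        ∃ b : Fin k → M, ElemEquiv L t b ∧ IsMinimalSet L (solSet θ b) := by
  classical
  obtain ⟨S₀, -, hS₀⟩ := exists_atomic hst M₀ (isEmptyElim : PEmpty.{max u v + 1} → M₀)
  have : Nonempty S₀ := by
    obtain ⟨a, ha, -⟩ := exists_mem_holds S₀
      (⟨0, ⊤, Fin.elim0⟩ : PFormula L M₀) (f := id) (fun j => j.elim0)
      ⟨Classical.arbitrary M₀, by simp [Holds]⟩
    exact ⟨⟨a, ha⟩⟩
  let S := Theory.ModelType.of T S₀
  have : Infinite S := infinite_of_isComplete hT M₀ S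
  obtain ⟨⟨k, θ₀, t⟩, hmin⟩ := exists_minimal_definable hst S
  let θ := ofPFormula (⟨k, θ₀, t⟩ : PFormula L S)
  have hθ : solSet θ t = solutions id (⟨k, θ₀, t⟩ : PFormula L S) :=
    solSet_ofPFormula _ id
  rw [← hθ] at hmin
  refine ⟨k, θ, fun j => (t j).1, fun M => ?_⟩
  obtain ⟨b, hb⟩ := exists_elemEquiv_of_isolated hT M₀ M
    (hS₀ k (fun j => (t j).1) fun j => (t j).2)
  exact ⟨b, hb, isMinimalSet_congr hT M₀ hVP ((elemEquiv_map S₀.subtype t).trans hb) hmin⟩

end FA.TwoCardinal
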