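import Fermat.Agent.Morley.Maps
import Mathlib.ModelTheory.Ultraproducts
import Mathlib.Order.Filter.Ultrafilter.Basic
import Mathlib.Data.Set.Card

/-!
# Saturated Vaughtian pairs

An ultrapower of a pair of models is a pair realising the types over countable sets on both sides.
-/

set_option autoImplicit false

universe u v w

namespace FA.TwoCardinal

open FirstOrder Language Cardinal Filter FA.Morley

variable {L : Language.{u, v}} {T : L.Theory}

/-- A Vaughtian pair: a proper elementary substructure which contains an infinite definable set,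
with the parameters. -/
def HasVaughtianPair (T : L.Theory) : Prop :=
  ∃ (N : Theory.ModelType.{u, v, max u v} T) (S : L.ElementarySubstructure N) (φ : PFormula L N),
    (∀ j, φ.2.2 j ∈ S) ∧ solutions id φ ⊆ S ∧ (solutions id φ).Infinite ∧
      (S : Set N) ≠ Set.univ

/-- A set in which the types over its countable subsets are realised. -/
def IsRichSet (L : Language.{u, v}) {K : Type w} [L.Structure K] (E : Set K) : Prop :=
  ∀ B ⊆ E, B.Countable → ∀ p, IsType (L := L) (Subtype.val : B → K) p →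
    ∃ a ∈ E, Realizes (L := L) (Subtype.val : B → K) p a

/-- An elementary substructure contains witnesses for its parameters. -/
theorem exists_mem_holds {N : Type w} [L.Structure N] (S : L.ElementarySubstructure N) {P : Type*}
    {f : P → N} (φ : PFormula L P) (hf : ∀ j, f (φ.2.2 j) ∈ S) (h : ∃ a, Holds f φ a) :
    ∃ a ∈ S, Holds f φ a := by
  let y : Fin φ.1 → S := fun j => ⟨f (φ.2.2 j), hf j⟩
  have h' := (holds_existsFormula f φ).2 h
  rw [show f ∘ φ.2.2 = S.subtype ∘ y from rfl, S.subtype.map_formula, realize_existsFormula] at h'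
  obtain ⟨a, ha⟩ := h'
  refine ⟨a.1, a.2, ?_⟩
  have := (S.subtype.map_formula φ.2.1 (Fin.snoc y a)).2 ha
  rw [Fin.comp_snoc] at this
  exact this

section Ultrapower

variable {N : Type w} [L.Structure N] [Nonempty N] {U : Ultrafilter ℕ}

/-- The class of a sequence. -/
def toUltra (U : Ultrafilter ℕ) (x : ℕ → N) : (U : Filter ℕ).Product fun _ => N :=
  (x : (U : Filter ℕ).Product fun _ => N)

omit [L.Structure N] [Nonempty N] in
theorem toUltra_surjective : Function.Surjective (toUltra (N := N) U) :=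
  Quotient.exists_rep

omit [L.Structure N] [Nonempty N] in
theorem toUltra_eq_iff {x y : ℕ → N} :
    toUltra U x = toUltra U y ↔ ∀ᶠ m in (U : Filter ℕ), x m = y m :=
  Quotient.eq''

theorem holds_toUltra {P : Type*} (r : P → ℕ → N) (φ : PFormula L P) (x : ℕ → N) :
    Holds (fun p => toUltra U (r p)) φ (toUltra U x) ↔
      ∀ᶠ m in (U : Filter ℕ), Holds (fun p => r p m) φ (x m) := by
  have e : (Fin.snoc ((fun p => toUltra U (r p)) ∘ φ.2.2) (toUltra U x) :
      Fin (φ.1 + 1) → (U : Filter ℕ).Product fun _ => N) =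
      fun i => toUltra U ((Fin.snoc (r ∘ φ.2.2) x : Fin (φ.1 + 1) → ℕ → N) i) := funext fun i => by
    induction i using Fin.lastCases <;> simp
  rw [Holds, e]
  refine (Ultraproduct.realize_formula_cast φ.2.1 _).trans (eventually_congr (.of_forall fun m =>
    iff_of_eq (congrArg φ.2.1.Realize (funext fun i => ?_))))
  induction i using Fin.lastCases <;> simp

theorem exists_holds_toUltra_iff {P : Type*} (r : P → ℕ → N) (φ : PFormula L P) :
    (∃ a, Holds (fun p => toUltra U (r p)) φ a) ↔
      ∀ᶠ m in (U : Filter ℕ), ∃ a, Holds (fun p => r p m) φ a := by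
  simp only [← holds_existsFormula]
  exact Ultraproduct.realize_formula_cast (existsFormula φ) (r ∘ φ.2.2)

/-- A countable type over representatives is realised by a sequence from any set which contains
witnesses in every coordinate. -/
theorem exists_realizes_toUltra (hU : (U : Filter ℕ) ≤ atTop) {P : Type*}
    [Countable (PFormula L P)] [Nonempty (PFormula L P)] (C : Set N) (hC : C.Nonempty)
    (r : P → ℕ → N)
    (hwit : ∀ (φ : PFormula L P) (m : ℕ), (∃ a, Holds (fun p => r p m) φ a) →
      ∃ a ∈ C, Holds (fun p => r p m) φ a)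
    {p : Set (PFormula L P)} (hp : IsType (fun q => toUltra U (r q)) p) :
    ∃ x : ℕ → N, (∀ m, x m ∈ C) ∧ Realizes (fun q => toUltra U (r q)) p (toUltra U x) := by
  classical
  obtain ⟨e, he⟩ := exists_surjective_nat (PFormula L P)
  let θ : ℕ → PFormula L P := fun n => signedConj ((Finset.range n).image e) p
  let OK : ℕ → ℕ → Prop := fun m n => ∃ a, Holds (fun q => r q m) (θ n) a
  have hOK : ∀ n, ∀ᶠ m in (U : Filter ℕ), OK m n := fun n =>
    (exists_holds_toUltra_iff r _).1 (hp.exists_holds_signedConj _)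
  have hx : ∀ m, ∃ x ∈ C, ∀ n, OK m n → n ≤ m →
      ∀ i < n, (e i ∈ p ↔ Holds (fun q => r q m) (e i) x) := by
    intro m
    by_cases h : ∃ n ≤ m, OK m n
    · obtain ⟨hle, hok⟩ : Nat.findGreatest (OK m) m ≤ m ∧ OK m (Nat.findGreatest (OK m) m) :=
        ⟨Nat.findGreatest_le m, let ⟨n, hn, hn'⟩ := h; Nat.findGreatest_spec hn hn'⟩
      obtain ⟨x, hxC, hx⟩ := hwit _ m hok
      refine ⟨x, hxC, fun n hn hnm i hi => ?_⟩
      exact (holds_signedConj _ _ _ x).1 hx _ (Finset.mem_image_of_mem _
        (Finset.mem_range.2 (hi.trans_le (Nat.le_findGreatest hnm hn))))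
    · obtain ⟨x, hxC⟩ := hC
      exact ⟨x, hxC, fun n hn hnm => absurd ⟨n, hnm, hn⟩ h⟩
  choose x hxC hx using hx
  refine ⟨x, hxC, fun φ => ?_⟩
  obtain ⟨i, rfl⟩ := he φ
  have hev : ∀ᶠ m in (U : Filter ℕ), (e i ∈ p ↔ Holds (fun q => r q m) (e i) (x m)) := by
    filter_upwards [hOK (i + 1), hU (eventually_ge_atTop (i + 1))] with m h1 h2
    exact hx m (i + 1) h1 h2 i (Nat.lt_succ_self i)
  rw [holds_toUltra]
  exact ⟨fun h => hev.mono fun m hm => hm.1 h,
    fun h => let ⟨m, hm, hm'⟩ := (hev.and h).exists; hm.2 hm'⟩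

end Ultrapower

/-- A sequence of definable sets inside a proper elementary substructure, of growing size, gives
a rich Vaughtian pair. -/
theorem exists_richPair [Countable L.Symbols] (N : Theory.ModelType.{u, v, max u v} T)
    (S : L.ElementarySubstructure N) (hS : (S : Set N) ≠ Set.univ) {k : ℕ}
    (ψ : L.Formula (Fin (k + 1))) (a : ℕ → Fin k → N) (ha : ∀ n j, a n j ∈ S)
    (hsub : ∀ n, solutions id (⟨k, ψ, a n⟩ : PFormula L N) ⊆ S)
    (hbig : ∀ n : ℕ, (n : ℕ∞) ≤ (solutions id (⟨k, ψ, a n⟩ : PFormula L N)).encard) :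
    ∃ (K : Theory.ModelType.{u, v, max u v} T) (E : Set K) (b : Fin k → K),
      IsRichSet L (Set.univ : Set K) ∧ IsRichSet L E ∧
      (∃ S' : L.ElementarySubstructure K, (S' : Set K) = E) ∧ E ≠ Set.univ ∧ (∀ j, b j ∈ E) ∧
      solutions id (⟨k, ψ, b⟩ : PFormula L K) ⊆ E ∧
      (solutions id (⟨k, ψ, b⟩ : PFormula L K)).Infinite := by
  classical
  let U : Ultrafilter ℕ := hyperfilter ℕ
  have hU : (U : Filter ℕ) ≤ atTop := Nat.hyperfilter_le_atTop
  let K₀ := (U : Filter ℕ).Product fun _ => N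
  have : K₀ ⊨ T := ⟨fun σ hσ => (Ultraproduct.sentence_realize σ).2
    (.of_forall fun _ => N.is_model.realize_of_mem σ hσ)⟩
  have : Nonempty K₀ := ⟨toUltra U fun _ => Classical.arbitrary N⟩
  let K := Theory.ModelType.of T K₀
  let q : (ℕ → N) → K := toUltra U
  let E : Set K := {x | ∃ r : ℕ → N, (∀ m, r m ∈ S) ∧ q r = x}
  let b : Fin k → K := fun j => q fun n => a n j
  obtain ⟨c, hc⟩ := (Set.ne_univ_iff_exists_notMem _).1 hS
  have hsol : ∀ x : ℕ → N, q x ∈ solutions id (⟨k, ψ, b⟩ : PFormula L K) ↔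
      ∀ᶠ n in (U : Filter ℕ), x n ∈ solutions id (⟨k, ψ, a n⟩ : PFormula L N) := fun x =>
    holds_toUltra (fun (j : Fin k) n => a n j) (⟨k, ψ, id⟩ : PFormula L (Fin k)) x
  have hSne : (S : Set N).Nonempty := by
    obtain ⟨x, hx⟩ := Set.one_le_encard_iff_nonempty.1 (by simpa using hbig 1)
    exact ⟨x, hsub 1 hx⟩
  refine ⟨K, E, b, fun B _ hBc p hp => ?_, fun B hB hBc p hp => ?_, ?_, fun hE => ?_,
    fun j => ⟨fun n => a n j, fun n => ha n j, rfl⟩, fun x hx => ?_, fun hfin => ?_⟩
  · have := hBc.to_subtype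
    have : Nonempty (PFormula L B) := ⟨⟨0, ⊤, Fin.elim0⟩⟩
    choose r hr using fun x : B => toUltra_surjective (U := U) x.1
    have e : (fun x : B => q (r x)) = Subtype.val := funext hr
    rw [← e] at hp ⊢
    obtain ⟨x, -, hx⟩ := exists_realizes_toUltra hU Set.univ Set.univ_nonempty r
      (fun φ m ⟨y, hy⟩ => ⟨y, trivial, hy⟩) hp
    exact ⟨q x, trivial, hx⟩
  · have := hBc.to_subtype
    have : Nonempty (PFormula L B) := ⟨⟨0, ⊤, Fin.elim0⟩⟩
    choose r hrS hr using fun x : B => hB x.2
    have e : (fun x : B => q (r x)) = Subtype.val := funext hr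
    rw [← e] at hp ⊢
    obtain ⟨x, hxS, hx⟩ := exists_realizes_toUltra hU (S : Set N) hSne r
      (fun φ m => exists_mem_holds S φ fun j => hrS _ m) hp
    exact ⟨q x, ⟨x, hxS, rfl⟩, hx⟩
  · obtain ⟨S', hS'⟩ := exists_elementary_range (L := L) (Subtype.val : E → K) fun φ hφ => by
      choose r hrS hr using fun x : E => x.2
      have e : (fun x : E => q (r x)) = Subtype.val := funext hr
      rw [← e] at hφ
      have hev := (exists_holds_toUltra_iff r φ).1 hφ
      have hw : ∀ m, ∃ y ∈ S, (∃ a, Holds (fun x => r x m) φ a) → Holds (fun x => r x m) φ y :=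
        fun m => by
        by_cases h : ∃ a, Holds (fun x => r x m) φ a
        · obtain ⟨y, hy, hy'⟩ := exists_mem_holds S φ (fun j => hrS _ m) h
          exact ⟨y, hy, fun _ => hy'⟩
        · obtain ⟨y, hy⟩ := hSne
          exact ⟨y, hy, fun h' => absurd h' h⟩
      choose y hy hy' using hw
      refine ⟨⟨q y, y, hy, rfl⟩, ?_⟩
      exact (congrArg (fun f => Holds f φ (q y)) e).mp ((holds_toUltra r φ y).2 (hev.mono hy'))
    exact ⟨S', hS'.trans Subtype.range_coe⟩
  · obtain ⟨r, hr, he⟩ : q (fun _ => c) ∈ E := hE ▸ Set.mem_univ _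
    obtain ⟨m, hm⟩ := (toUltra_eq_iff.1 he).exists
    exact hc (hm ▸ hr m)
  · obtain ⟨r, rfl⟩ := toUltra_surjective (U := U) x
    have hev := (hsol r).1 hx
    obtain ⟨s₀, hs₀⟩ := hSne
    refine ⟨fun n => if r n ∈ S then r n else s₀, fun n => ?_, toUltra_eq_iff.2 ?_⟩
    · dsimp only
      split_ifs with h
      exacts [h, hs₀]
    · exact hev.mono fun n hn => if_pos (hsub n hn)
  · choose r hr using fun x : hfin.toFinset => toUltra_surjective (U := U) x.1
    let card := hfin.toFinset.card
    have hy : ∀ n, ∃ y, card < n → y ∈ solutions id (⟨k, ψ, a n⟩ : PFormula L N) ∧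
        ∀ x, y ≠ r x n := fun n => by
      by_cases hn : card < n
      · obtain ⟨y, hy, hy'⟩ := Set.not_subset.1 fun hsub' :
            solutions id (⟨k, ψ, a n⟩ : PFormula L N) ⊆ ↑(Finset.univ.image fun x => r x n) => by
          have h1 := (hbig n).trans ((Set.encard_le_encard hsub').trans
            (Set.encard_coe_eq_coe_finsetCard _).le)
          have h2 : (Finset.univ.image fun x => r x n).card ≤ card :=
            Finset.card_image_le.trans (by simp [card])
          exact absurd (ENat.natCast_le_natCast.1 h1) (by omega)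
        exact ⟨y, fun _ => ⟨hy, fun x hx => hy' (by simp [hx])⟩⟩
      · exact ⟨c, fun h => absurd h hn⟩
    choose y hy using hy
    have hbigev : ∀ᶠ n in (U : Filter ℕ), card < n := hU (eventually_gt_atTop card)
    have hmem : q y ∈ hfin.toFinset :=
      hfin.mem_toFinset.2 ((hsol y).2 (hbigev.mono fun n hn => (hy n hn).1))
    obtain ⟨n, hn, hn'⟩ := (hbigev.and (toUltra_eq_iff.1 (hr ⟨q y, hmem⟩))).exists
    exact (hy n hn).2 ⟨q y, hmem⟩ hn'.symm

end FA.TwoCardinal
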